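/-
IHARA package [H1](a) (helper7), file: **topology**.  `A` a local algebra over a Noetherian local ring
`𝒪`, embedded in a finite product of local `𝒪`-algebras `R i` which are finite over `𝒪` and whose
maximal-ideal-adic topologies are the `𝔪_𝒪`-adic ones.

* `ihd_pow_le`             : for discrete valuation rings `𝒪 ⊆ R`, `𝔪_R ^ n' ⊆ 𝔪_𝒪 ^ m R`;
* `ihd_mem_range_of_approx` : the image of a linear map into a finite module is closed;
* `ihd_hcont`              : the hypothesis `hcont` of `ihc_carayol`.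
-/
import Mathlib

set_option autoImplicit false
set_option linter.unusedSectionVars false
set_option linter.unusedVariables false
set_option linter.style.haveILetI false

open IsLocalRing

namespace Fermat.Agent.Ihara

/-- for discrete valuation rings `𝒪 ⊆ R`, a power of `𝔪_R` lies in `𝔪_𝒪 ^ m R` -/
theorem ihd_pow_le {𝒪 R : Type*} [CommRing 𝒪] [IsDomain 𝒪] [IsDiscreteValuationRing 𝒪]
    [CommRing R] [IsDomain R] [IsDiscreteValuationRing R] [Algebra 𝒪 R]
    (hinj : Function.Injective (algebraMap 𝒪 R)) (m : ℕ) :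
    ∃ n' : ℕ, ∀ x ∈ maximalIdeal R ^ n', x ∈ (maximalIdeal 𝒪 ^ m) • (⊤ : Submodule 𝒪 R) := by
  obtain ⟨ϖ, hϖ⟩ := IsDiscreteValuationRing.exists_irreducible 𝒪
  obtain ⟨π, hπ⟩ := IsDiscreteValuationRing.exists_irreducible R
  have hy0 : algebraMap 𝒪 R (ϖ ^ m) ≠ 0 := by
    intro h
    rw [← map_zero (algebraMap 𝒪 R)] at h
    exact pow_ne_zero m hϖ.ne_zero (hinj h)
  have hne : Ideal.span {algebraMap 𝒪 R (ϖ ^ m)} ≠ ⊥ := by
    rw [Ne, Ideal.span_singleton_eq_bot]
    exact hy0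
  obtain ⟨n', hn'⟩ := IsDiscreteValuationRing.ideal_eq_span_pow_irreducible hne hπ
  refine ⟨n', fun x hx => ?_⟩
  rw [hπ.maximalIdeal_eq, Ideal.span_singleton_pow, ← hn'] at hx
  obtain ⟨z, rfl⟩ := Ideal.mem_span_singleton'.mp hx
  rw [mul_comm, ← Algebra.smul_def]
  refine Submodule.smul_mem_smul (Ideal.pow_mem_pow ?_ m) Submodule.mem_top
  rw [hϖ.maximalIdeal_eq]
  exact Ideal.mem_span_singleton_self ϖ

section Closed

variable {𝒪 : Type*} [CommRing 𝒪] [IsLocalRing 𝒪] [IsNoetherianRing 𝒪]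

/-- the image of a linear map into a finite module over a Noetherian local ring is closed -/
theorem ihd_mem_range_of_approx {M N : Type*} [AddCommGroup M] [Module 𝒪 M] [AddCommGroup N]
    [Module 𝒪 N] [Module.Finite 𝒪 N] (f : M →ₗ[𝒪] N) (x : N)
    (h : ∀ m : ℕ, ∃ a : M, x - f a ∈ (maximalIdeal 𝒪 ^ m) • (⊤ : Submodule 𝒪 N)) :
    x ∈ LinearMap.range f := by
  set W := LinearMap.range f with hW
  have hbot : ⨅ i : ℕ, (maximalIdeal 𝒪 ^ i) • (⊤ : Submodule 𝒪 (N ⧸ W)) = ⊥ :=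
    Ideal.iInf_pow_smul_eq_bot_of_isLocalRing (maximalIdeal 𝒪)
      (Ideal.IsMaximal.ne_top inferInstance)
  rw [← Submodule.Quotient.mk_eq_zero W, ← Submodule.mem_bot (R := 𝒪), ← hbot,
    Submodule.mem_iInf]
  intro m
  obtain ⟨a, ha⟩ := h m
  have h1 : (Submodule.Quotient.mk x : N ⧸ W) = W.mkQ (x - f a) := by
    rw [Submodule.mkQ_apply, Submodule.Quotient.mk_sub,
      (Submodule.Quotient.mk_eq_zero W).mpr (LinearMap.mem_range_self f a), sub_zero]
  rw [h1]
  have h2 : W.mkQ (x - f a) ∈ Submodule.map W.mkQ ((maximalIdeal 𝒪 ^ m) • (⊤ : Submodule 𝒪 N)) :=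
    Submodule.mem_map_of_mem ha
  rw [Submodule.map_smul''] at h2
  exact Submodule.smul_mono le_rfl le_top h2

/-- a vector of a finite product all of whose components lie in `I • ⊤` lies in `I • ⊤` -/
theorem ihd_pi_mem_smul_top {ι : Type*} [Finite ι] {R : ι → Type*} [∀ i, AddCommGroup (R i)]
    [∀ i, Module 𝒪 (R i)] (I : Ideal 𝒪) (y : ∀ i, R i)
    (hy : ∀ i, y i ∈ I • (⊤ : Submodule 𝒪 (R i))) : y ∈ I • (⊤ : Submodule 𝒪 (∀ i, R i)) := by
  classical
  cases nonempty_fintype ι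
  rw [← Finset.univ_sum_single y]
  refine Submodule.sum_mem _ fun i _ => ?_
  have h1 : Pi.single i (y i) ∈ Submodule.map (LinearMap.single 𝒪 R i)
      (I • (⊤ : Submodule 𝒪 (R i))) := ⟨y i, hy i, rfl⟩
  rw [Submodule.map_smul''] at h1
  exact Submodule.smul_mono le_rfl le_top h1

/-- **the topology hypothesis of Carayol's lemma**, for varying coefficient rings -/
theorem ihd_hcont {ι : Type*} [Finite ι] (R : ι → Type*) [∀ i, CommRing (R i)]
    [∀ i, IsLocalRing (R i)] [∀ i, Algebra 𝒪 (R i)] [∀ i, Module.Finite 𝒪 (R i)]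
    {A : Type*} [CommRing A] [IsLocalRing A] [Algebra 𝒪 A] [IsLocalHom (algebraMap 𝒪 A)]
    (emb : ∀ i, A →ₐ[𝒪] R i) (hinj : ∀ a : A, (∀ i, emb i a = 0) → a = 0)
    (hpow : ∀ i (m : ℕ), ∃ n' : ℕ, ∀ x ∈ maximalIdeal (R i) ^ n',
      x ∈ (maximalIdeal 𝒪 ^ m) • (⊤ : Submodule 𝒪 (R i))) (n : ℕ) :
    ∃ n' : ℕ, ∀ a : A, (∀ i, emb i a ∈ maximalIdeal (R i) ^ n') → a ∈ maximalIdeal A ^ n := by
  classical
  cases nonempty_fintype ι
  have hmap : ∀ m : ℕ, (maximalIdeal 𝒪 ^ m).map (algebraMap 𝒪 A) ≤ maximalIdeal A ^ m := by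
    intro m
    rw [Ideal.map_pow]
    exact Ideal.pow_right_mono (Ideal.map_le_iff_le_comap.mpr fun x hx =>
      Ideal.mem_comap.mpr (map_nonunit (algebraMap 𝒪 A) x hx)) m
  let f : A →ₗ[𝒪] (∀ i, R i) := LinearMap.pi fun i => (emb i).toLinearMap
  have hf : Function.Injective f := by
    rw [injective_iff_map_eq_zero]
    intro a ha
    exact hinj a fun i => congrFun ha i
  obtain ⟨k, hk⟩ := Ideal.exists_pow_inf_eq_pow_smul (maximalIdeal 𝒪) (LinearMap.range f)
  choose n₀ hn₀ using fun i => hpow i (n + k)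
  refine ⟨Finset.univ.sup n₀, fun a ha => ?_⟩
  have h1 : f a ∈ maximalIdeal 𝒪 ^ (n + k) • (⊤ : Submodule 𝒪 (∀ i, R i)) ⊓
      LinearMap.range f := by
    refine ⟨ihd_pi_mem_smul_top _ _ fun i => ?_, LinearMap.mem_range_self f a⟩
    exact hn₀ i _ (Ideal.pow_le_pow_right (Finset.le_sup (Finset.mem_univ i)) (ha i))
  rw [hk (n + k) (Nat.le_add_left k n), Nat.add_sub_cancel] at h1
  have h2 : f a ∈ maximalIdeal 𝒪 ^ n • LinearMap.range f :=
    Submodule.smul_mono le_rfl inf_le_right h1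
  rw [LinearMap.range_eq_map, ← Submodule.map_smul''] at h2
  obtain ⟨a', ha', haa'⟩ := h2
  have : a' = a := hf haa'
  subst this
  refine Submodule.smul_induction_on (p := fun x => x ∈ maximalIdeal A ^ n) ha' ?_ ?_
  · intro r hr v _
    rw [Algebra.smul_def]
    exact Ideal.mul_mem_right _ _ (hmap n (Ideal.mem_map_of_mem _ hr))
  · intro x y hx hy
    exact Ideal.add_mem _ hx hy

end Closed

end Fermat.Agent.Ihara
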