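/-
IHARA (S43 case (C) via Taylor's Ihara avoidance), package [H1](a) (helper7), file 1:
**the idempotent of a maximal ideal of a finite algebra over a complete local ring**.

* `ihd_exists_idempotent_lift` : idempotents lift modulo an ideal `I` for which the ring is `I`-adically
  complete (Hensel's lemma for `X² - X`);
* `ihd_artinian_idempotent` : in a commutative Artinian ring every maximal ideal `m` has an idempotent
  `e` with `1 - e ∈ m` and `e ∈ m'` for every other maximal ideal `m'`;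
* `ihd_maximal_ge` : the maximal ideals of a finite algebra `B` over a local ring `𝒪` contain `𝔪_𝒪 B`;
* `ihd_exists_idempotent` : `B` finite over a complete Noetherian local ring `𝒪`, `𝔫` a maximal ideal of
  `B`: there is an idempotent `e` with `1 - e ∈ 𝔫` and `e ∈ 𝔫'` for every other maximal ideal.
-/
import Mathlib
import Fermat.Agent.Lib.CFT.Local.Basic

set_option autoImplicit false
set_option linter.unusedSectionVars false
set_option linter.unusedVariables false
set_option linter.style.haveILetI false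

open IsLocalRing Polynomial

namespace Fermat.Agent.Ihara

/-- **idempotents lift** modulo an ideal of adic completeness -/
theorem ihd_exists_idempotent_lift {R : Type*} [CommRing R] (I : Ideal R) [IsAdicComplete I R]
    (a : R) (ha : a * a - a ∈ I) : ∃ e : R, IsIdempotentElem e ∧ e - a ∈ I := by
  have hmonic : (X ^ 2 - X : R[X]).Monic := by
    nontriviality R
    apply monic_X_pow_sub
    rw [degree_X]
    norm_num
  have heval : (X ^ 2 - X : R[X]).eval a ∈ I := by
    simp only [eval_sub, eval_pow, eval_X]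
    rw [sq]
    exact ha
  have hder : IsUnit (Ideal.Quotient.mk I ((X ^ 2 - X : R[X]).derivative.eval a)) := by
    have e1 : (X ^ 2 - X : R[X]).derivative.eval a = 2 * a - 1 := by
      simp [derivative_sub]
      ring
    rw [e1]
    refine IsUnit.of_mul_eq_one (Ideal.Quotient.mk I (2 * a - 1)) ?_
    rw [← map_mul, ← map_one (Ideal.Quotient.mk I), Ideal.Quotient.eq]
    have : (2 * a - 1) * (2 * a - 1) - 1 = 4 * (a * a - a) := by ring
    rw [this]
    exact I.mul_mem_left _ ha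
  obtain ⟨e, he, hea⟩ := HenselianRing.is_henselian (I := I) (X ^ 2 - X : R[X]) hmonic a heval hder
  refine ⟨e, ?_, hea⟩
  rw [IsRoot.def] at he
  simp only [eval_sub, eval_pow, eval_X] at he
  rw [IsIdempotentElem, ← sq]
  exact sub_eq_zero.mp he

/-- in an Artinian ring every maximal ideal is cut out by an idempotent -/
theorem ihd_artinian_idempotent {R : Type*} [CommRing R] [IsArtinianRing R] (m : Ideal R)
    [hm : m.IsMaximal] :
    ∃ e : R, IsIdempotentElem e ∧ 1 - e ∈ m ∧ ∀ m' : Ideal R, m'.IsMaximal → m' ≠ m → e ∈ m' := by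
  classical
  let φ := IsArtinianRing.quotNilradicalEquivPi R
  let m₀ : MaximalSpectrum R := ⟨m, hm⟩
  let u : ∀ I : MaximalSpectrum R, R ⧸ I.asIdeal := Pi.single m₀ 1
  have hu : IsIdempotentElem u := by
    ext I
    by_cases h : I = m₀
    · subst h
      simp [u]
    · simp [u, Pi.single_eq_of_ne h]
  let f : R →+* (∀ I : MaximalSpectrum R, R ⧸ I.asIdeal) :=
    (φ : (R ⧸ nilradical R) →+* _).comp (Ideal.Quotient.mk (nilradical R))
  have hfapp : ∀ (x : R) (I : MaximalSpectrum R), f x I = Ideal.Quotient.mk I.asIdeal x := by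
    intro x I
    rfl
  have hsurj : Function.Surjective f :=
    φ.surjective.comp Ideal.Quotient.mk_surjective
  have hker : ∀ x ∈ RingHom.ker f, IsNilpotent x := by
    intro x hx
    rw [RingHom.mem_ker] at hx
    have h1 : (Ideal.Quotient.mk (nilradical R)) x = 0 := by
      apply φ.injective
      rw [map_zero]
      exact hx
    rw [Ideal.Quotient.eq_zero_iff_mem] at h1
    exact h1
  obtain ⟨e, he, hfe⟩ := exists_isIdempotentElem_eq_of_ker_isNilpotent f hker u
    (hsurj u) hu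
  refine ⟨e, he, ?_, ?_⟩
  · have h1 : f (1 - e) m₀ = 0 := by
      rw [map_sub, map_one, hfe]
      simp [u]
    rw [hfapp, Ideal.Quotient.eq_zero_iff_mem] at h1
    exact h1
  · intro m' hm' hne
    let m₁ : MaximalSpectrum R := ⟨m', hm'⟩
    have hne' : m₁ ≠ m₀ := by
      intro h
      exact hne (congrArg MaximalSpectrum.asIdeal h)
    have h1 : f e m₁ = 0 := by
      rw [hfe]
      simp [u, Pi.single_eq_of_ne hne']
    rw [hfapp, Ideal.Quotient.eq_zero_iff_mem] at h1
    exact h1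

section Finite

variable {𝒪 : Type*} [CommRing 𝒪] [IsLocalRing 𝒪]
  {B : Type*} [CommRing B] [Algebra 𝒪 B] [Module.Finite 𝒪 B]

/-- maximal ideals of a finite algebra over a local ring lie over the maximal ideal -/
theorem ihd_maximal_ge (𝔫 : Ideal B) [h𝔫 : 𝔫.IsMaximal] :
    (maximalIdeal 𝒪).map (algebraMap 𝒪 B) ≤ 𝔫 := by
  haveI : Algebra.IsIntegral 𝒪 B := Algebra.IsIntegral.of_finite 𝒪 B
  have hmax : (𝔫.comap (algebraMap 𝒪 B)).IsMaximal :=
    Ideal.isMaximal_comap_of_isIntegral_of_isMaximal 𝔫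
  rw [Ideal.map_le_iff_le_comap, IsLocalRing.eq_maximalIdeal hmax]

end Finite

section Complete

variable (𝒪 : Type*) [CommRing 𝒪] [IsLocalRing 𝒪] [IsNoetherianRing 𝒪]
  [IsAdicComplete (maximalIdeal 𝒪) 𝒪]
  (B : Type*) [CommRing B] [Algebra 𝒪 B] [Module.Finite 𝒪 B]

/-- `B` is complete for the `𝔪_𝒪 B`-adic topology -/
theorem ihd_isAdicComplete_map :
    IsAdicComplete ((maximalIdeal 𝒪).map (algebraMap 𝒪 B)) B :=
  (IsAdicComplete.map_algebraMap_iff (maximalIdeal 𝒪) B).mpr
    (Fermat.Agent.CFT.Local.isAdicComplete_of_finite (maximalIdeal 𝒪) B)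

attribute [local instance] Ideal.Quotient.field in
/-- `B / 𝔪_𝒪 B` is Artinian -/
theorem ihd_isArtinianRing_quotient :
    IsArtinianRing (B ⧸ (maximalIdeal 𝒪).map (algebraMap 𝒪 B)) := by
  haveI : Module.Finite (𝒪 ⧸ maximalIdeal 𝒪) (B ⧸ (maximalIdeal 𝒪).map (algebraMap 𝒪 B)) :=
    Module.Finite.of_restrictScalars_finite 𝒪 _ _
  exact IsArtinianRing.of_finite (𝒪 ⧸ maximalIdeal 𝒪) _

/-- **the idempotent of a maximal ideal** of a finite algebra over a complete Noetherian local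
ring -/
theorem ihd_exists_idempotent {B : Type*} [CommRing B] [Algebra 𝒪 B] [Module.Finite 𝒪 B]
    (𝔫 : Ideal B) [h𝔫 : 𝔫.IsMaximal] :
    ∃ e : B, IsIdempotentElem e ∧ 1 - e ∈ 𝔫 ∧
      ∀ 𝔫' : Ideal B, 𝔫'.IsMaximal → 𝔫' ≠ 𝔫 → e ∈ 𝔫' := by
  set I : Ideal B := (maximalIdeal 𝒪).map (algebraMap 𝒪 B) with hI
  haveI : IsAdicComplete I B := ihd_isAdicComplete_map 𝒪 B
  haveI : IsArtinianRing (B ⧸ I) := ihd_isArtinianRing_quotient 𝒪 B
  have hmk : Function.Surjective (Ideal.Quotient.mk I) := Ideal.Quotient.mk_surjective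
  -- maximal ideals of `B` and of `B ⧸ I`
  have hmax : ∀ 𝔮 : Ideal B, 𝔮.IsMaximal → (𝔮.map (Ideal.Quotient.mk I)).IsMaximal := by
    intro 𝔮 h𝔮
    refine Ideal.IsMaximal.map_of_surjective_of_ker_le hmk ?_
    rw [Ideal.mk_ker]
    exact ihd_maximal_ge (𝒪 := 𝒪) 𝔮
  have hcomap : ∀ 𝔮 : Ideal B, 𝔮.IsMaximal →
      (𝔮.map (Ideal.Quotient.mk I)).comap (Ideal.Quotient.mk I) = 𝔮 := by
    intro 𝔮 h𝔮
    rw [Ideal.comap_map_of_surjective _ hmk, ← RingHom.ker_eq_comap_bot, Ideal.mk_ker]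
    exact sup_eq_left.mpr (ihd_maximal_ge (𝒪 := 𝒪) 𝔮)
  haveI := hmax 𝔫 h𝔫
  obtain ⟨e₀, he₀, h1, h2⟩ := ihd_artinian_idempotent (𝔫.map (Ideal.Quotient.mk I))
  obtain ⟨a, rfl⟩ := hmk e₀
  have ha : a * a - a ∈ I := by
    rw [← Ideal.Quotient.eq_zero_iff_mem, map_sub, map_mul, he₀.eq, sub_self]
  obtain ⟨e, he, hea⟩ := ihd_exists_idempotent_lift I a ha
  have hmk_e : Ideal.Quotient.mk I e = Ideal.Quotient.mk I a := by
    rw [Ideal.Quotient.eq]
    exact hea
  refine ⟨e, he, ?_, ?_⟩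
  · rw [← hcomap 𝔫 h𝔫, Ideal.mem_comap, map_sub, map_one, hmk_e]
    exact h1
  · intro 𝔫' h𝔫' hne
    rw [← hcomap 𝔫' h𝔫', Ideal.mem_comap, hmk_e]
    refine h2 _ (hmax 𝔫' h𝔫') ?_
    intro heq
    apply hne
    rw [← hcomap 𝔫' h𝔫', ← hcomap 𝔫 h𝔫, heq]

end Complete

end Fermat.Agent.Ihara
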