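/-
IHARA (S43 case (C) via Taylor's Ihara avoidance), package [H1](a) (helper7), file 2:
**the local factor `B_𝔫` of a finite algebra `B` over a complete discrete valuation ring `𝒪`**.

`IhdLoc 𝒪 𝔫 := B ⧸ (1 - e)` for the idempotent `e` of the maximal ideal `𝔫` (`Idem.lean`).
It is a local ring with maximal ideal the image of `𝔫`, Noetherian, finite over `𝒪`, free over `𝒪` when
`B` is torsion-free, complete for its maximal ideal, and `𝒪 → IhdLoc` is a local homomorphism.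
Every ring homomorphism `ψ : B → R` to a local ring with `ψ⁻¹(𝔪_R) = 𝔫` factors through it.
-/
import Mathlib
import Fermat.Agent.Lib.Ihara.Dat.Idem

set_option autoImplicit false
set_option linter.unusedSectionVars false
set_option linter.unusedVariables false
set_option linter.style.haveILetI false

open IsLocalRing Polynomial

namespace Fermat.Agent.Ihara

/-- comparison of adic completeness: `I ≤ M`, `M ^ c ≤ I` -/
theorem ihd_isAdicComplete_of_le {R : Type*} [CommRing R] (I M : Ideal R) (hIM : I ≤ M) {c : ℕ}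
    (hc : c ≠ 0) (hMI : M ^ c ≤ I) (h : IsAdicComplete I R) : IsAdicComplete M R := by
  have hle : ∀ n, (M ^ (c * n) • ⊤ : Submodule R R) ≤ (I ^ n • ⊤ : Submodule R R) := by
    intro n
    refine Submodule.smul_mono_left ?_
    rw [pow_mul]
    exact Ideal.pow_right_mono hMI n
  have hle' : ∀ n, (I ^ n • ⊤ : Submodule R R) ≤ (M ^ n • ⊤ : Submodule R R) := fun n =>
    Submodule.smul_mono_left (Ideal.pow_right_mono hIM n)
  refine { haus' := fun x hx => ?_, prec' := fun f hf => ?_ }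
  · apply h.haus' x
    intro n
    have := hx (c * n)
    rw [SModEq.zero] at this ⊢
    exact hle n this
  · obtain ⟨L, hL⟩ := h.prec' (fun n => f (c * n)) (by
      intro m n hmn
      have := hf (Nat.mul_le_mul_left c hmn)
      exact SModEq.mono (hle m) this)
    refine ⟨L, fun n => ?_⟩
    have h1 : f n ≡ f (c * n) [SMOD (M ^ n • ⊤ : Submodule R R)] :=
      hf (Nat.le_mul_of_pos_left n (Nat.pos_of_ne_zero hc))
    have h2 : f (c * n) ≡ L [SMOD (M ^ n • ⊤ : Submodule R R)] :=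
      SModEq.mono (hle' n) (hL n)
    exact h1.trans h2

section Loc

variable (𝒪 : Type*) [CommRing 𝒪] [IsLocalRing 𝒪] [IsNoetherianRing 𝒪]
  [IsAdicComplete (maximalIdeal 𝒪) 𝒪]
  {B : Type*} [CommRing B] [Algebra 𝒪 B] [Module.Finite 𝒪 B]
  (𝔫 : Ideal B) [h𝔫 : 𝔫.IsMaximal]

/-- the idempotent of the maximal ideal `𝔫` -/
noncomputable def ihdIdem : B := Classical.choose (ihd_exists_idempotent 𝒪 𝔫)

theorem ihdIdem_idem : IsIdempotentElem (ihdIdem 𝒪 𝔫) :=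
  (Classical.choose_spec (ihd_exists_idempotent 𝒪 𝔫)).1

theorem ihdIdem_one_sub_mem : 1 - ihdIdem 𝒪 𝔫 ∈ 𝔫 :=
  (Classical.choose_spec (ihd_exists_idempotent 𝒪 𝔫)).2.1

theorem ihdIdem_mem_of_ne (𝔫' : Ideal B) (h' : 𝔫'.IsMaximal) (hne : 𝔫' ≠ 𝔫) :
    ihdIdem 𝒪 𝔫 ∈ 𝔫' :=
  (Classical.choose_spec (ihd_exists_idempotent 𝒪 𝔫)).2.2 𝔫' h' hne

/-- the ideal `(1 - e)` -/
noncomputable def ihdKer : Ideal B := Ideal.span {1 - ihdIdem 𝒪 𝔫}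

theorem ihdKer_le : ihdKer 𝒪 𝔫 ≤ 𝔫 := by
  rw [ihdKer, Ideal.span_le, Set.singleton_subset_iff]
  exact ihdIdem_one_sub_mem 𝒪 𝔫

/-- membership in `(1 - e)`: `x ∈ (1 - e) ↔ e x = 0` -/
theorem mem_ihdKer_iff (x : B) : x ∈ ihdKer 𝒪 𝔫 ↔ ihdIdem 𝒪 𝔫 * x = 0 := by
  have he := ihdIdem_idem 𝒪 𝔫
  rw [ihdKer, Ideal.mem_span_singleton']
  constructor
  · rintro ⟨y, rfl⟩
    have : ihdIdem 𝒪 𝔫 * (y * (1 - ihdIdem 𝒪 𝔫)) =
        y * (ihdIdem 𝒪 𝔫 - ihdIdem 𝒪 𝔫 * ihdIdem 𝒪 𝔫) := by ring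
    rw [this, he.eq, sub_self, mul_zero]
  · intro h
    refine ⟨x, ?_⟩
    rw [mul_sub, mul_one, mul_comm x, h, sub_zero]

/-- **the local factor** `B_𝔫 = B ⧸ (1 - e)` -/
abbrev IhdLoc : Type _ := B ⧸ ihdKer 𝒪 𝔫

/-- the projection `B → B_𝔫` -/
noncomputable abbrev ihdLocMk : B →ₐ[𝒪] IhdLoc 𝒪 𝔫 := Ideal.Quotient.mkₐ 𝒪 (ihdKer 𝒪 𝔫)

theorem ihdLocMk_surjective : Function.Surjective (ihdLocMk 𝒪 𝔫) :=
  Ideal.Quotient.mkₐ_surjective 𝒪 _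

instance ihdLoc_finite : Module.Finite 𝒪 (IhdLoc 𝒪 𝔫) :=
  Module.Finite.of_surjective (ihdLocMk 𝒪 𝔫).toLinearMap (ihdLocMk_surjective 𝒪 𝔫)

/-- the image of `𝔫` is the unique maximal ideal -/
theorem ihdLoc_map_isMaximal : (𝔫.map (Ideal.Quotient.mk (ihdKer 𝒪 𝔫))).IsMaximal := by
  refine Ideal.IsMaximal.map_of_surjective_of_ker_le Ideal.Quotient.mk_surjective ?_
  rw [Ideal.mk_ker]
  exact ihdKer_le 𝒪 𝔫

theorem ihdLoc_eq_of_isMaximal (J : Ideal (IhdLoc 𝒪 𝔫)) (hJ : J.IsMaximal) :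
    J = 𝔫.map (Ideal.Quotient.mk (ihdKer 𝒪 𝔫)) := by
  have hsurj : Function.Surjective (Ideal.Quotient.mk (ihdKer 𝒪 𝔫)) := Ideal.Quotient.mk_surjective
  have hcm : (J.comap (Ideal.Quotient.mk (ihdKer 𝒪 𝔫))).IsMaximal :=
    Ideal.comap_isMaximal_of_surjective _ hsurj
  have hmem : 1 - ihdIdem 𝒪 𝔫 ∈ J.comap (Ideal.Quotient.mk (ihdKer 𝒪 𝔫)) := by
    rw [Ideal.mem_comap]
    have : Ideal.Quotient.mk (ihdKer 𝒪 𝔫) (1 - ihdIdem 𝒪 𝔫) = 0 := by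
      rw [Ideal.Quotient.eq_zero_iff_mem]
      exact Ideal.subset_span rfl
    rw [this]
    exact J.zero_mem
  have heq : J.comap (Ideal.Quotient.mk (ihdKer 𝒪 𝔫)) = 𝔫 := by
    by_contra hne
    have he := ihdIdem_mem_of_ne 𝒪 𝔫 _ hcm hne
    have h1 : (1 : B) ∈ J.comap (Ideal.Quotient.mk (ihdKer 𝒪 𝔫)) := by
      have := Ideal.add_mem _ hmem he
      rwa [sub_add_cancel] at this
    exact hcm.ne_top ((Ideal.eq_top_iff_one _).mpr h1)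
  have h2 := Ideal.map_comap_of_surjective _ hsurj J
  rw [heq] at h2
  exact h2.symm

instance ihdLoc_isLocalRing : IsLocalRing (IhdLoc 𝒪 𝔫) :=
  IsLocalRing.of_unique_max_ideal
    ⟨_, ihdLoc_map_isMaximal 𝒪 𝔫, fun J hJ => ihdLoc_eq_of_isMaximal 𝒪 𝔫 J hJ⟩

theorem ihdLoc_maximalIdeal :
    maximalIdeal (IhdLoc 𝒪 𝔫) = 𝔫.map (Ideal.Quotient.mk (ihdKer 𝒪 𝔫)) :=
  ihdLoc_eq_of_isMaximal 𝒪 𝔫 _ (maximalIdeal.isMaximal _)

/-- `x ∈ 𝔫 ↔` its image is in the maximal ideal -/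
theorem ihdLocMk_mem_maximalIdeal (x : B) :
    ihdLocMk 𝒪 𝔫 x ∈ maximalIdeal (IhdLoc 𝒪 𝔫) ↔ x ∈ 𝔫 := by
  rw [ihdLoc_maximalIdeal]
  have hsurj : Function.Surjective (Ideal.Quotient.mk (ihdKer 𝒪 𝔫)) := Ideal.Quotient.mk_surjective
  constructor
  · intro h
    have h1 : x ∈ (𝔫.map (Ideal.Quotient.mk (ihdKer 𝒪 𝔫))).comap
        (Ideal.Quotient.mk (ihdKer 𝒪 𝔫)) := h
    rw [Ideal.comap_map_of_surjective _ hsurj, ← RingHom.ker_eq_comap_bot, Ideal.mk_ker,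
      sup_eq_left.mpr (ihdKer_le 𝒪 𝔫)] at h1
    exact h1
  · intro h
    exact Ideal.mem_map_of_mem _ h

instance ihdLoc_isNoetherianRing : IsNoetherianRing (IhdLoc 𝒪 𝔫) :=
  IsNoetherianRing.of_finite 𝒪 (IhdLoc 𝒪 𝔫)

instance ihdLoc_isLocalHom : IsLocalHom (algebraMap 𝒪 (IhdLoc 𝒪 𝔫)) := by
  refine ⟨fun a ha => ?_⟩
  by_contra hna
  have hmem : a ∈ maximalIdeal 𝒪 := (mem_maximalIdeal a).mpr hna
  have h1 : algebraMap 𝒪 (IhdLoc 𝒪 𝔫) a ∈ maximalIdeal (IhdLoc 𝒪 𝔫) :=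
    ihd_maximal_ge (𝒪 := 𝒪) (maximalIdeal (IhdLoc 𝒪 𝔫)) (Ideal.mem_map_of_mem _ hmem)
  exact (mem_maximalIdeal _).mp h1 ha

/-- **completeness** of the local factor for its maximal ideal -/
instance ihdLoc_isAdicComplete :
    IsAdicComplete (maximalIdeal (IhdLoc 𝒪 𝔫)) (IhdLoc 𝒪 𝔫) := by
  have h1 : IsAdicComplete ((maximalIdeal 𝒪).map (algebraMap 𝒪 (IhdLoc 𝒪 𝔫))) (IhdLoc 𝒪 𝔫) :=
    ihd_isAdicComplete_map 𝒪 (IhdLoc 𝒪 𝔫)
  haveI : IsArtinianRing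
      (IhdLoc 𝒪 𝔫 ⧸ (maximalIdeal 𝒪).map (algebraMap 𝒪 (IhdLoc 𝒪 𝔫))) :=
    ihd_isArtinianRing_quotient 𝒪 (IhdLoc 𝒪 𝔫)
  obtain ⟨c, hc⟩ := exists_maximalIdeal_pow_le_of_isArtinianRing_quotient
    ((maximalIdeal 𝒪).map (algebraMap 𝒪 (IhdLoc 𝒪 𝔫)))
  have hIM : (maximalIdeal 𝒪).map (algebraMap 𝒪 (IhdLoc 𝒪 𝔫)) ≤ maximalIdeal (IhdLoc 𝒪 𝔫) :=
    ihd_maximal_ge (𝒪 := 𝒪) _
  refine ihd_isAdicComplete_of_le _ _ hIM (c := c + 1) (Nat.succ_ne_zero c) ?_ h1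
  rw [pow_succ]
  exact Ideal.mul_le_left.trans hc

/-- an idempotent in the maximal ideal of a local ring vanishes -/
theorem ihd_idem_eq_zero_of_mem {R : Type*} [CommRing R] [IsLocalRing R] {u : R}
    (hu : IsIdempotentElem u) (hmem : u ∈ maximalIdeal R) : u = 0 := by
  have hunit : IsUnit (1 - u) := by
    by_contra h
    have h1 : 1 - u ∈ maximalIdeal R := (mem_maximalIdeal _).mpr h
    have h2 : (1 : R) ∈ maximalIdeal R := by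
      have := Ideal.add_mem _ h1 hmem
      rwa [sub_add_cancel] at this
    exact (maximalIdeal.isMaximal R).ne_top ((Ideal.eq_top_iff_one _).mpr h2)
  have h0 : (1 - u) * u = 0 := by
    rw [sub_mul, one_mul, hu.eq, sub_self]
  exact (hunit.mul_right_eq_zero).mp h0

/-- **factorisation**: a homomorphism to a local ring which maps `𝔫` into the maximal ideal kills
`(1 - e)` -/
theorem ihdKer_le_ker {R : Type*} [CommRing R] [IsLocalRing R] (ψ : B →+* R)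
    (hψ : ∀ x ∈ 𝔫, ψ x ∈ maximalIdeal R) : ihdKer 𝒪 𝔫 ≤ RingHom.ker ψ := by
  rw [ihdKer, Ideal.span_le, Set.singleton_subset_iff, SetLike.mem_coe, RingHom.mem_ker]
  have hid : IsIdempotentElem (ψ (1 - ihdIdem 𝒪 𝔫)) := by
    have he := ihdIdem_idem 𝒪 𝔫
    have : IsIdempotentElem (1 - ihdIdem 𝒪 𝔫) := he.one_sub
    exact this.map ψ
  exact ihd_idem_eq_zero_of_mem hid (hψ _ (ihdIdem_one_sub_mem 𝒪 𝔫))

/-- the induced homomorphism `B_𝔫 → R` -/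
noncomputable def ihdLocLift {R : Type*} [CommRing R] [IsLocalRing R] (ψ : B →+* R)
    (hψ : ∀ x ∈ 𝔫, ψ x ∈ maximalIdeal R) : IhdLoc 𝒪 𝔫 →+* R :=
  Ideal.Quotient.lift (ihdKer 𝒪 𝔫) ψ (fun x hx => RingHom.mem_ker.mp (ihdKer_le_ker 𝒪 𝔫 ψ hψ hx))

@[simp] theorem ihdLocLift_mk {R : Type*} [CommRing R] [IsLocalRing R] (ψ : B →+* R)
    (hψ : ∀ x ∈ 𝔫, ψ x ∈ maximalIdeal R) (x : B) :
    ihdLocLift 𝒪 𝔫 ψ hψ (ihdLocMk 𝒪 𝔫 x) = ψ x := by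
  rfl

/-- the `𝒪`-algebra version -/
noncomputable def ihdLocLiftₐ {R : Type*} [CommRing R] [IsLocalRing R] [Algebra 𝒪 R]
    (ψ : B →ₐ[𝒪] R) (hψ : ∀ x ∈ 𝔫, ψ x ∈ maximalIdeal R) : IhdLoc 𝒪 𝔫 →ₐ[𝒪] R :=
  Ideal.Quotient.liftₐ (ihdKer 𝒪 𝔫) ψ
    (fun x hx => RingHom.mem_ker.mp (ihdKer_le_ker 𝒪 𝔫 (ψ : B →+* R) hψ hx))

@[simp] theorem ihdLocLiftₐ_mk {R : Type*} [CommRing R] [IsLocalRing R] [Algebra 𝒪 R]
    (ψ : B →ₐ[𝒪] R) (hψ : ∀ x ∈ 𝔫, ψ x ∈ maximalIdeal R) (x : B) :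
    ihdLocLiftₐ 𝒪 𝔫 ψ hψ (ihdLocMk 𝒪 𝔫 x) = ψ x := by
  rfl

end Loc

section DVR

variable (𝒪 : Type*) [CommRing 𝒪] [IsDomain 𝒪] [IsDiscreteValuationRing 𝒪]
  [IsAdicComplete (maximalIdeal 𝒪) 𝒪]
  {B : Type*} [CommRing B] [Algebra 𝒪 B] [Module.Finite 𝒪 B] [Module.IsTorsionFree 𝒪 B]
  (𝔫 : Ideal B) [h𝔫 : 𝔫.IsMaximal]

/-- torsion-freeness passes to the local factor -/
theorem ihdLoc_smul_eq_zero (a : 𝒪) (ha : a ≠ 0) (y : IhdLoc 𝒪 𝔫)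
    (h : a • y = 0) : y = 0 := by
  obtain ⟨x, rfl⟩ := ihdLocMk_surjective 𝒪 𝔫 y
  have h1 : ihdLocMk 𝒪 𝔫 (a • x) = 0 := by
    rw [map_smul]
    exact h
  have h2 : a • x ∈ ihdKer 𝒪 𝔫 := Ideal.Quotient.eq_zero_iff_mem.mp h1
  rw [mem_ihdKer_iff, mul_smul_comm] at h2
  have h3 : ihdIdem 𝒪 𝔫 * x = 0 := (smul_eq_zero.mp h2).resolve_left ha
  exact Ideal.Quotient.eq_zero_iff_mem.mpr ((mem_ihdKer_iff 𝒪 𝔫 x).mpr h3)

instance ihdLoc_isTorsionFree : Module.IsTorsionFree 𝒪 (IhdLoc 𝒪 𝔫) where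
  isSMulRegular r hr y₁ y₂ h := by
    have hr0 : r ≠ 0 := hr.ne_zero
    have h0 : r • (y₁ - y₂) = 0 := by
      rw [smul_sub]
      exact sub_eq_zero.mpr h
    exact sub_eq_zero.mp (ihdLoc_smul_eq_zero 𝒪 𝔫 r hr0 _ h0)

/-- the local factor of a torsion-free finite algebra over a discrete valuation ring is free -/
instance ihdLoc_free : Module.Free 𝒪 (IhdLoc 𝒪 𝔫) :=
  Module.free_of_finite_type_torsion_free'

end DVR

end Fermat.Agent.Ihara
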