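/-
IHARA (S43 case (C) via Taylor's Ihara avoidance), package [H1](a) (helper7), file 3:
**the local Hecke ring `T_θ` of a residual eigensystem `θ`**.

`𝕋 = heckeAlgebra N 2 S` (finite free over `ℤ`, S22), `𝒪` a complete discrete valuation ring,
`θ : 𝕋 →+* k = 𝒪/𝔪`.  `IhdB 𝒪 N S = 𝒪 ⊗_ℤ 𝕋`, `ihdTheta θ : IhdB →ₐ[𝒪] k`, `ihdMax θ = ker`,
`IhdT 𝒪 θ := IhdLoc 𝒪 (ihdMax θ)` the local factor, `ihdPi θ : 𝕋 →+* IhdT 𝒪 θ`.
All the typeclass hypotheses on `T` of `CuspForm.HeckeGaloisRepDatum` are instances, and the fields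
`residue_π`, `adjoin_range_π`, `exists_point`, `residue_surjective` are proved.
-/
import Mathlib
import Fermat.Prelude.Def_CuspForm_HeckeGaloisRepDatum
import Fermat.Agent.Lib.Ihara.Dat.Factor
import Fermat.Agent.Lib.S22.HeckeFinite

set_option autoImplicit false
set_option linter.unusedSectionVars false
set_option linter.unusedVariables false
set_option linter.style.haveILetI false

open IsLocalRing Polynomial
open scoped TensorProduct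

namespace Fermat.Agent.Ihara

variable (𝒪 : Type) [CommRing 𝒪] [IsDomain 𝒪] [IsDiscreteValuationRing 𝒪]
  [IsAdicComplete (maximalIdeal 𝒪) 𝒪]
  {N : ℕ} [NeZero N] {S : Set ℕ}

/-- `𝒪 ⊗_ℤ 𝕋` -/
abbrev IhdB (𝒪 : Type) [CommRing 𝒪] (N : ℕ) [NeZero N] (S : Set ℕ) : Type :=
  𝒪 ⊗[ℤ] (CuspForm.heckeAlgebra N 2 S)

instance ihdB_finite_int : Module.Finite ℤ (CuspForm.heckeAlgebra N 2 S) :=
  Fermat.Agent.S22Lib.moduleFinite_heckeAlgebra N 2 S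

instance ihdB_free_int : Module.Free ℤ (CuspForm.heckeAlgebra N 2 S) :=
  Module.free_of_finite_type_torsion_free'

instance ihdB_finite : Module.Finite 𝒪 (IhdB 𝒪 N S) := inferInstance

instance ihdB_free : Module.Free 𝒪 (IhdB 𝒪 N S) := inferInstance

instance ihdB_torsionFree : Module.IsTorsionFree 𝒪 (IhdB 𝒪 N S) := inferInstance

variable (θ : CuspForm.heckeAlgebra N 2 S →+* ResidueField 𝒪)

/-- `θ̃ : 𝒪 ⊗ 𝕋 → k`, `a ⊗ t ↦ ā θ(t)` -/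
noncomputable def ihdTheta : IhdB 𝒪 N S →ₐ[𝒪] ResidueField 𝒪 :=
  Algebra.TensorProduct.lift (Algebra.ofId 𝒪 (ResidueField 𝒪)) θ.toIntAlgHom
    (fun _ _ => Commute.all _ _)

@[simp] theorem ihdTheta_tmul (a : 𝒪) (t : CuspForm.heckeAlgebra N 2 S) :
    ihdTheta 𝒪 θ (a ⊗ₜ[ℤ] t) = residue 𝒪 a * θ t := by
  rw [ihdTheta, Algebra.TensorProduct.lift_tmul]
  rfl

theorem ihdTheta_surjective : Function.Surjective (ihdTheta 𝒪 θ) := by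
  intro y
  obtain ⟨a, rfl⟩ := residue_surjective y
  refine ⟨a ⊗ₜ[ℤ] 1, ?_⟩
  rw [ihdTheta_tmul, map_one, mul_one]

/-- the maximal ideal of `θ` -/
noncomputable def ihdMax : Ideal (IhdB 𝒪 N S) := RingHom.ker (ihdTheta 𝒪 θ)

instance ihdMax_isMaximal : (ihdMax 𝒪 θ).IsMaximal :=
  RingHom.ker_isMaximal_of_surjective _ (ihdTheta_surjective 𝒪 θ)

theorem mem_ihdMax (x : IhdB 𝒪 N S) : x ∈ ihdMax 𝒪 θ ↔ ihdTheta 𝒪 θ x = 0 := RingHom.mem_ker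

/-- **the local Hecke ring of `θ`** -/
abbrev IhdT : Type := IhdLoc 𝒪 (ihdMax 𝒪 θ)

/-- `𝕋 → T_θ` -/
noncomputable def ihdPi : CuspForm.heckeAlgebra N 2 S →+* IhdT 𝒪 θ :=
  (ihdLocMk 𝒪 (ihdMax 𝒪 θ) : IhdB 𝒪 N S →+* IhdT 𝒪 θ).comp
    (Algebra.TensorProduct.includeRight : CuspForm.heckeAlgebra N 2 S →ₐ[ℤ] IhdB 𝒪 N S).toRingHom

theorem ihdPi_apply (t : CuspForm.heckeAlgebra N 2 S) :
    ihdPi 𝒪 θ t = ihdLocMk 𝒪 (ihdMax 𝒪 θ) ((1 : 𝒪) ⊗ₜ[ℤ] t) := rfl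

/-- elements of `B` with the same `θ̃`-value have the same residue in `T_θ` -/
theorem ihd_residue_eq {x y : IhdB 𝒪 N S} (h : ihdTheta 𝒪 θ x = ihdTheta 𝒪 θ y) :
    residue (IhdT 𝒪 θ) (ihdLocMk 𝒪 (ihdMax 𝒪 θ) x) =
      residue (IhdT 𝒪 θ) (ihdLocMk 𝒪 (ihdMax 𝒪 θ) y) := by
  rw [← sub_eq_zero, ← map_sub, ← map_sub, residue_eq_zero_iff, ihdLocMk_mem_maximalIdeal,
    mem_ihdMax, map_sub, h, sub_self]

/-- field `residue_π` -/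
theorem ihd_residue_pi (t : CuspForm.heckeAlgebra N 2 S) :
    residue (IhdT 𝒪 θ) (ihdPi 𝒪 θ t) =
      ResidueField.map (algebraMap 𝒪 (IhdT 𝒪 θ)) (θ t) := by
  obtain ⟨a, ha⟩ := residue_surjective (θ t)
  rw [← ha, ResidueField.map_residue, ihdPi_apply]
  have h1 : algebraMap 𝒪 (IhdT 𝒪 θ) a = ihdLocMk 𝒪 (ihdMax 𝒪 θ) (a ⊗ₜ[ℤ] 1) := by
    rw [← AlgHom.commutes (ihdLocMk 𝒪 (ihdMax 𝒪 θ)) a]
    rfl
  rw [h1]
  apply ihd_residue_eq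
  rw [ihdTheta_tmul, ihdTheta_tmul, map_one, one_mul, map_one, mul_one, ha]

/-- field `residue_surjective` -/
theorem ihd_residue_surjective :
    Function.Surjective (residue (IhdT 𝒪 θ) ∘ algebraMap 𝒪 (IhdT 𝒪 θ)) := by
  intro y
  obtain ⟨z, rfl⟩ := residue_surjective y
  obtain ⟨x, rfl⟩ := ihdLocMk_surjective 𝒪 (ihdMax 𝒪 θ) z
  obtain ⟨a, ha⟩ := residue_surjective (ihdTheta 𝒪 θ x)
  refine ⟨a, ?_⟩
  have h1 : algebraMap 𝒪 (IhdT 𝒪 θ) a = ihdLocMk 𝒪 (ihdMax 𝒪 θ) (a ⊗ₜ[ℤ] 1) := by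
    rw [← AlgHom.commutes (ihdLocMk 𝒪 (ihdMax 𝒪 θ)) a]
    rfl
  rw [Function.comp_apply, h1]
  apply ihd_residue_eq
  rw [ihdTheta_tmul, map_one, mul_one, ha]

/-- field `adjoin_range_π` -/
theorem ihd_adjoin_range_pi : Algebra.adjoin 𝒪 (Set.range (ihdPi 𝒪 θ)) = ⊤ := by
  rw [eq_top_iff]
  rintro y -
  obtain ⟨x, rfl⟩ := ihdLocMk_surjective 𝒪 (ihdMax 𝒪 θ) y
  induction x using TensorProduct.induction_on with
  | zero => rw [map_zero]; exact Subalgebra.zero_mem _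
  | tmul a t =>
    have : a ⊗ₜ[ℤ] t = a • ((1 : 𝒪) ⊗ₜ[ℤ] t) := by
      rw [TensorProduct.smul_tmul', smul_eq_mul, mul_one]
    rw [this, map_smul, ← ihdPi_apply]
    exact Subalgebra.smul_mem _ (Algebra.subset_adjoin (Set.mem_range_self t)) a
  | add x y hx hy => rw [map_add]; exact Subalgebra.add_mem _ hx hy

/-- field `exists_point` -/
theorem ihd_exists_point (χ : CuspForm.heckeAlgebra N 2 S →+* 𝒪)
    (hχ : ∀ t, residue 𝒪 (χ t) = θ t) :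
    ∃ ψ : IhdT 𝒪 θ →ₐ[𝒪] 𝒪, ∀ t, ψ (ihdPi 𝒪 θ t) = χ t := by
  let ψ₀ : IhdB 𝒪 N S →ₐ[𝒪] 𝒪 :=
    Algebra.TensorProduct.lift (AlgHom.id 𝒪 𝒪) χ.toIntAlgHom (fun _ _ => Commute.all _ _)
  have hψ₀ : ∀ (a : 𝒪) (t : CuspForm.heckeAlgebra N 2 S), ψ₀ (a ⊗ₜ[ℤ] t) = a * χ t := by
    intro a t
    rw [Algebra.TensorProduct.lift_tmul]
    rfl
  have hres : ∀ x, residue 𝒪 (ψ₀ x) = ihdTheta 𝒪 θ x := by
    intro x
    induction x using TensorProduct.induction_on with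
    | zero => rw [map_zero, map_zero, map_zero]
    | tmul a t => rw [hψ₀, ihdTheta_tmul, map_mul, hχ]
    | add x y hx hy => rw [map_add, map_add, map_add, hx, hy]
  have hmem : ∀ x ∈ ihdMax 𝒪 θ, ψ₀ x ∈ maximalIdeal 𝒪 := by
    intro x hx
    rw [← residue_eq_zero_iff, hres]
    exact (mem_ihdMax 𝒪 θ x).mp hx
  refine ⟨ihdLocLiftₐ 𝒪 (ihdMax 𝒪 θ) ψ₀ hmem, fun t => ?_⟩
  rw [ihdPi_apply, ihdLocLiftₐ_mk, hψ₀, one_mul]

end Fermat.Agent.Ihara
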