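/-
IHARA package [H1](a) (helper7), file: **the points of a reduced finite flat local algebra together
with their Galois representations** (S30), and oddness at complex conjugation.

* `ihd_conj_ne_one`   : complex conjugation is not the identity;
* `ihd_det_of_charpoly` : the determinant from the characteristic polynomial `X² - tX + d`;
* `ihd_det_conj`      : a `p`-adic representation over a local domain whose Frobenius determinants are
                        `ℓ` has `det ρ(c) = -1`;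
* `ihd_point_extend`  : a point of `T` extends to a point carrying the Galois representation of S30;
* `ihd_exists_points` : finitely many jointly injective points with Galois representations.
-/
import Mathlib
import Fermat.Agent.Lib.Alpha.S32.Points
import Fermat.Agent.Lib.S58.Odd
import Fermat.Agent.Lib.S31.Trace.PowTrace
import Fermat.Agent.S30

set_option autoImplicit false
set_option linter.unusedSectionVars false
set_option linter.unusedVariables false
set_option linter.style.haveILetI false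

open IsLocalRing Polynomial
open scoped TensorProduct

namespace Fermat.Agent.Ihara

local notation "Qbar" => AlgebraicClosure ℚ
local notation "GQ" => (AlgebraicClosure ℚ ≃ₐ[ℚ] AlgebraicClosure ℚ)

open Fermat.Agent.Alpha (AlpqPoint)

/-- complex conjugation is not the identity -/
theorem ihd_conj_ne_one : complexConjugation ≠ 1 := by
  intro h
  obtain ⟨x, hx⟩ := IsAlgClosed.exists_pow_nat_eq (-1 : Qbar) (n := 2) (by norm_num)
  have h1 := complexEmbedding_complexConjugation x
  rw [h, AlgEquiv.one_apply] at h1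
  set z := complexEmbedding x with hz
  have hz2 : z ^ 2 = -1 := by rw [hz, ← map_pow, hx, map_neg, map_one]
  have him : z.im = 0 := Complex.conj_eq_iff_im.mp h1.symm
  have hre : z = (z.re : ℂ) := by
    apply Complex.ext
    · rfl
    · rw [him, Complex.ofReal_im]
  rw [hre] at hz2
  have h3 := congrArg Complex.re hz2
  rw [← Complex.ofReal_pow, Complex.ofReal_re, Complex.neg_re, Complex.one_re] at h3
  nlinarith [sq_nonneg z.re]

/-- the determinant from the characteristic polynomial -/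
theorem ihd_det_of_charpoly {R : Type} [CommRing R] [Nontrivial R] {V : Type} [AddCommGroup V]
    [Module R V] [Module.Free R V] [Module.Finite R V] (hV : Module.finrank R V = 2)
    (f : Module.End R V) (t d : R) (hf : LinearMap.charpoly f = X ^ 2 - C t * X + C d) :
    LinearMap.det f = d := by
  classical
  let b : Module.Basis (Fin 2) R V := Module.finBasisOfFinrankEq R V hV
  obtain ⟨-, hd⟩ := Fermat.Agent.S31T.s31t_trace_det_of_charpoly b f t d hf
  rw [← LinearMap.det_toMatrix b, hd]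

/-- **oddness at complex conjugation** -/
theorem ihd_det_conj {R : Type} [CommRing R] [IsDomain R] [IsLocalRing R] {p : ℕ} (hp : p.Prime)
    (hp2 : p ≠ 2) (hpR : (p : R) ∈ maximalIdeal R) (ρ : GaloisRepAdic R) (S : Finset ℕ)
    (hdet : ∀ l : ℕ, l.Prime → l ∉ S → ∀ (A : ValuationSubring Qbar) (φ : GQ),
      A.LiesOverPrime l → A.IsFrobeniusAt φ l → LinearMap.det (ρ.ρ φ) = (l : R)) :
    LinearMap.det (ρ.ρ complexConjugation) = -1 := by
  have hodd := Fermat.Agent.S58.s58o_isOdd hp hp2 hpR ρ S hdet complexConjugation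
    complexConjugation_mul_self ihd_conj_ne_one
  have h2 : LinearMap.det (ρ.residual.ρ complexConjugation) =
      residue R (LinearMap.det (ρ.ρ complexConjugation)) :=
    LinearMap.det_baseChange (ρ.ρ complexConjugation)
  rw [h2] at hodd
  set d := LinearMap.det (ρ.ρ complexConjugation) with hd
  have hdd : d * d = 1 := by
    rw [hd, ← map_mul, ← map_mul, complexConjugation_mul_self, map_one, map_one]
  have hfac : (d - 1) * (d + 1) = 0 := by linear_combination hdd
  rcases mul_eq_zero.mp hfac with h | h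
  · exfalso
    have hd1 : d = 1 := sub_eq_zero.mp h
    rw [hd1, map_one] at hodd
    have h2m : (2 : R) ∈ maximalIdeal R := by
      rw [← residue_eq_zero_iff, map_ofNat]
      linear_combination hodd
    obtain ⟨m, hm⟩ : Odd p := hp.eq_two_or_odd'.resolve_left hp2
    have h1 : (1 : R) ∈ maximalIdeal R := by
      have e : (1 : R) = (p : R) - 2 * (m : R) := by
        rw [hm]
        push_cast
        ring
      rw [e]
      exact Ideal.sub_mem _ hpR (Ideal.mul_mem_right _ _ h2m)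
    exact (Ideal.ne_top_iff_one _).mp (maximalIdeal.isMaximal R).ne_top h1
  · exact eq_neg_of_add_eq_zero_left h

section Extend

variable {𝒪 : Type} [CommRing 𝒪] [IsDomain 𝒪] [IsDiscreteValuationRing 𝒪]
  [IsAdicComplete (maximalIdeal 𝒪) 𝒪] [Finite (ResidueField 𝒪)] [CharZero 𝒪]
  {T : Type} [CommRing T] [Algebra 𝒪 T]
  {N : ℕ} [NeZero N] {S : Finset ℕ}

/-- **a point extends to a point carrying the Galois representation of S30** -/
theorem ihd_point_extend {p : ℕ} (hp : p.Prime) (hp𝒪 : (p : 𝒪) ∈ maximalIdeal 𝒪) (hpS : p ∈ S)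
    (hNS : ∀ q : ℕ, q.Prime → q ∣ N → q ∈ S)
    (π : CuspForm.heckeAlgebra N 2 (↑S : Set ℕ) →+* T) (P₀ : AlpqPoint 𝒪 T) :
    ∃ (P : AlpqPoint 𝒪 T) (ρ : GaloisRepAdic P.R),
      (∀ t : T, P.ψ t = 0 → P₀.ψ t = 0) ∧
      ∀ (ℓ : ℕ) (hℓ : ℓ.Prime) (hℓN : ¬ ℓ ∣ N) (hℓS : ℓ ∉ (↑S : Set ℕ)),
        ∀ A : ValuationSubring Qbar, A.LiesOverPrime ℓ →
          ∀ σ : GQ, A.IsFrobeniusAt σ ℓ →
            LinearMap.charpoly (ρ.ρ σ) =
              X ^ 2 - C (P.ψ (π (CuspForm.heckeAlgebra.T hℓ hℓN hℓS))) * X + C ((ℓ : P.R)) := by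
  haveI : Fact p.Prime := ⟨hp⟩
  obtain ⟨𝒪'', i1, i2, i3, i4, i5, i6, i7, i8, i9, hinj, ρ, hρ, -⟩ :=
    Fermat.Agent.S30.result p N S hpS hNS P₀.R (P₀.natCast_mem hp𝒪)
      ((P₀.ψ : T →+* P₀.R).comp π)
  letI alg : Algebra 𝒪 𝒪'' := ((algebraMap P₀.R 𝒪'').comp (algebraMap 𝒪 P₀.R)).toAlgebra
  haveI : IsScalarTower 𝒪 P₀.R 𝒪'' := IsScalarTower.of_algebraMap_eq fun _ => rfl
  haveI : Module.Finite 𝒪 𝒪'' := Module.Finite.trans P₀.R 𝒪''
  have hloc : IsLocalHom (algebraMap 𝒪 𝒪'') := by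
    have : algebraMap 𝒪 𝒪'' = (algebraMap P₀.R 𝒪'').comp (algebraMap 𝒪 P₀.R) := rfl
    rw [this]
    exact RingHom.isLocalHom_comp _ _
  have hinj' : Function.Injective (algebraMap 𝒪 𝒪'') := hinj.comp P₀.inj
  let ψ : T →ₐ[𝒪] 𝒪'' := (IsScalarTower.toAlgHom 𝒪 P₀.R 𝒪'').comp P₀.ψ
  have hψ : ∀ t, ψ t = algebraMap P₀.R 𝒪'' (P₀.ψ t) := fun _ => rfl
  have hψloc : IsLocalHom (ψ : T →+* 𝒪'') := by
    have : (ψ : T →+* 𝒪'') = (algebraMap P₀.R 𝒪'').comp (P₀.ψ : T →+* P₀.R) := rfl
    rw [this]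
    haveI := P₀.isLocalHom_ψ
    exact RingHom.isLocalHom_comp _ _
  refine ⟨{ R := 𝒪''
            instLocalHom := hloc
            inj := hinj'
            ψ := ψ
            isLocalHom_ψ := hψloc }, ρ, fun t ht => ?_, ?_⟩
  · change ψ t = 0 at ht
    rw [hψ, ← map_zero (algebraMap P₀.R 𝒪'')] at ht
    exact hinj ht
  · intro ℓ hℓ hℓN hℓS A hA σ hσ
    exact hρ ℓ hℓ hℓN hℓS A hA σ hσ

variable [IsLocalRing T] [IsNoetherianRing T] [Module.Finite 𝒪 T] [Module.Free 𝒪 T]

/-- **finitely many jointly injective points with their Galois representations** -/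
theorem ihd_exists_points [IsReduced T] {p : ℕ} (hp : p.Prime)
    (hp𝒪 : (p : 𝒪) ∈ maximalIdeal 𝒪) (hpS : p ∈ S) (hNS : ∀ q : ℕ, q.Prime → q ∣ N → q ∈ S)
    (π : CuspForm.heckeAlgebra N 2 (↑S : Set ℕ) →+* T) :
    ∃ (n : ℕ) (P : Fin n → AlpqPoint 𝒪 T) (ρ : ∀ i, GaloisRepAdic (P i).R),
      (∀ t : T, (∀ i, (P i).ψ t = 0) → t = 0) ∧
      ∀ (i : Fin n) (ℓ : ℕ) (hℓ : ℓ.Prime) (hℓN : ¬ ℓ ∣ N) (hℓS : ℓ ∉ (↑S : Set ℕ)),
        ∀ A : ValuationSubring Qbar, A.LiesOverPrime ℓ →
          ∀ σ : GQ, A.IsFrobeniusAt σ ℓ →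
            LinearMap.charpoly ((ρ i).ρ σ) =
              X ^ 2 - C ((P i).ψ (π (CuspForm.heckeAlgebra.T hℓ hℓN hℓS))) * X
                + C ((ℓ : (P i).R)) := by
  obtain ⟨n, P₀, hP₀⟩ := Fermat.Agent.Alpha.alpq_exists_points (𝒪 := 𝒪) (T := T)
  choose P ρ h1 h2 using fun i => ihd_point_extend hp hp𝒪 hpS hNS π (P₀ i)
  exact ⟨n, P, ρ, fun t ht => hP₀ t fun i => h1 i t (ht i), h2⟩

end Extend

end Fermat.Agent.Ihara
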