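/-
IHARA package [H1](a) (helper7), file: **the local Hecke ring `IhdT 𝒪 θ` is reduced**
(semisimplicity of the Hecke algebra of level `Γ₀(N)` away from the level, `s31_hecke_reduced`, and
`alpz_isReduced_of_gen`).
-/
import Mathlib
import Fermat.Agent.Lib.Ihara.Dat.Hecke
import Fermat.Agent.Lib.Alpha.S32.Reduced

set_option autoImplicit false
set_option linter.unusedSectionVars false
set_option linter.unusedVariables false
set_option linter.style.haveILetI false

open IsLocalRing Polynomial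
open scoped TensorProduct

namespace Fermat.Agent.Ihara

variable (𝒪 : Type) [CommRing 𝒪] [IsDomain 𝒪] [IsDiscreteValuationRing 𝒪]
  [IsAdicComplete (maximalIdeal 𝒪) 𝒪] [CharZero 𝒪]
  {N : ℕ} [NeZero N] {S : Finset ℕ}
  (θ : CuspForm.heckeAlgebra N 2 (↑S : Set ℕ) →+* ResidueField 𝒪)

/-- **the local Hecke ring is reduced** -/
theorem ihdT_isReduced (hNS : ∀ q : ℕ, q.Prime → q ∣ N → q ∈ S) : IsReduced (IhdT 𝒪 θ) := by
  haveI : CharZero (FractionRing 𝒪) :=
    charZero_of_injective_algebraMap (IsFractionRing.injective 𝒪 (FractionRing 𝒪))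
  apply Fermat.Agent.Alpha.alpz_isReduced_of_gen (R := 𝒪) (K := FractionRing 𝒪)
    (Set.range (ihdPi 𝒪 θ)) (ihd_adjoin_range_pi 𝒪 θ)
  rintro _ ⟨t, rfl⟩
  obtain ⟨P, hP0, hPsq⟩ := Fermat.Agent.Alpha.alpz_hecke_exists_poly hNS t
  refine ⟨P.map (Int.castRingHom 𝒪), ?_, ?_⟩
  · have h1 : (algebraMap 𝒪 (IhdT 𝒪 θ)).comp (Int.castRingHom 𝒪) =
        (ihdPi 𝒪 θ).comp (algebraMap ℤ (CuspForm.heckeAlgebra N 2 (↑S : Set ℕ))) :=
      RingHom.ext_int _ _
    rw [aeval_def, eval₂_map, h1, ← hom_eval₂, ← aeval_def, hP0, map_zero]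
  · have hsep : (P.map (Int.castRingHom ℚ)).Separable :=
      PerfectField.separable_iff_squarefree.mpr hPsq
    have h2 := hsep.map (f := algebraMap ℚ (FractionRing 𝒪))
    rw [Polynomial.map_map] at h2 ⊢
    have h3 : (algebraMap ℚ (FractionRing 𝒪)).comp (Int.castRingHom ℚ) =
        (algebraMap 𝒪 (FractionRing 𝒪)).comp (Int.castRingHom 𝒪) := RingHom.ext_int _ _
    rw [h3] at h2
    exact h2.squarefree

end Fermat.Agent.Ihara
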