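/-
IHARA package [H1](a) (helper7), file: **the Gram criterion for residual representations**.

`IhdGram ρ` : some frame of four elements of `G_ℚ` has non-zero Gram determinant for the trace
function of the two-dimensional representation `ρ` over a field.  It follows from absolute
irreducibility (Burnside, `exists_gram_ne_zero`), implies absolute irreducibility, is inherited by any
representation with the same trace function and by base change, and makes the trace function
determine the representation (`ihd_isEquiv_of_trace`).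
-/
import Mathlib
import Fermat.Prelude.Def_GaloisRep_Adic
import Fermat.Agent.Lib.S53.GramBurnside
import Fermat.Agent.Lib.Alpha.S32.Rigid

set_option autoImplicit false
set_option linter.unusedSectionVars false
set_option linter.unusedVariables false
set_option linter.style.haveILetI false

open IsLocalRing Polynomial
open scoped TensorProduct

namespace Fermat.Agent.Ihara

local notation "GQ" => (AlgebraicClosure ℚ ≃ₐ[ℚ] AlgebraicClosure ℚ)

open Fermat.Agent.S53Lib (FrameIdx gram gramMat gram_apply gramMat_apply)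

variable {K : Type} [Field K]

/-- the trace function of a residual representation -/
noncomputable def ihdTr (ρ : ResidualGaloisRep K) (σ : GQ) : K := LinearMap.trace K ρ.V (ρ.ρ σ)

/-- some frame has non-zero Gram determinant -/
def IhdGram (ρ : ResidualGaloisRep K) : Prop :=
  ∃ g : FrameIdx → GQ, (gram (ihdTr ρ) g).det ≠ 0

theorem ihdGram_of_abs (ρ : ResidualGaloisRep K) (habs : ρ.IsAbsolutelyIrreducible) :
    IhdGram ρ :=
  Fermat.Agent.S53Lib.exists_gram_ne_zero ρ habs

theorem IhdGram.of_trace_eq {ρ₁ ρ₂ : ResidualGaloisRep K} (h : IhdGram ρ₁)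
    (htr : ∀ σ, ihdTr ρ₁ σ = ihdTr ρ₂ σ) : IhdGram ρ₂ := by
  obtain ⟨g, hg⟩ := h
  refine ⟨g, ?_⟩
  have : ihdTr ρ₂ = ihdTr ρ₁ := funext fun σ => (htr σ).symm
  rw [this]
  exact hg

/-- transport of the Gram criterion along a field homomorphism and an equality of traces -/
theorem IhdGram.of_trace_map {K' : Type} [Field K'] (φ : K →+* K') {ρ₁ : ResidualGaloisRep K}
    {ρ₂ : ResidualGaloisRep K'} (h : IhdGram ρ₁)
    (htr : ∀ σ, ihdTr ρ₂ σ = φ (ihdTr ρ₁ σ)) : IhdGram ρ₂ := by
  obtain ⟨g, hg⟩ := h
  refine ⟨g, ?_⟩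
  have : ihdTr ρ₂ = fun σ => φ (ihdTr ρ₁ σ) := funext htr
  rw [this, Fermat.Agent.S53Lib.det_gram_map]
  exact fun h0 => hg (φ.injective (by rw [h0, map_zero]))

theorem ihdTr_baseChange (K' : Type) [Field K'] [Algebra K K'] (ρ : ResidualGaloisRep K) (σ : GQ) :
    ihdTr (ρ.baseChange K') σ = algebraMap K K' (ihdTr ρ σ) := by
  show LinearMap.trace K' (K' ⊗[K] ρ.V) ((ρ.ρ σ).baseChange K') = _
  rw [LinearMap.trace_baseChange]
  rfl

theorem ihdTr_baseChangeAlong {K' : Type} [Field K'] (φ : K →+* K') (ρ : ResidualGaloisRep K)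
    (σ : GQ) : ihdTr (ρ.baseChangeAlong φ) σ = φ (ihdTr ρ σ) := by
  letI : Algebra K K' := φ.toAlgebra
  exact ihdTr_baseChange K' ρ σ

theorem IhdGram.baseChange (K' : Type) [Field K'] [Algebra K K'] {ρ : ResidualGaloisRep K}
    (h : IhdGram ρ) : IhdGram (ρ.baseChange K') :=
  h.of_trace_map (algebraMap K K') (ihdTr_baseChange K' ρ)

theorem IhdGram.baseChangeAlong {K' : Type} [Field K'] (φ : K →+* K') {ρ : ResidualGaloisRep K}
    (h : IhdGram ρ) : IhdGram (ρ.baseChangeAlong φ) :=
  h.of_trace_map φ (ihdTr_baseChangeAlong φ ρ)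

/-- the Gram criterion implies irreducibility -/
theorem IhdGram.isIrreducible {ρ : ResidualGaloisRep K} (h : IhdGram ρ) : ρ.IsIrreducible := by
  classical
  obtain ⟨g, hg⟩ := h
  let b : Module.Basis (Fin 2) K ρ.V := Module.finBasisOfFinrankEq K ρ.V ρ.finrank_eq
  let T : Module.End K ρ.V ≃ₐ[K] Matrix (Fin 2) (Fin 2) K := LinearMap.toMatrixAlgEquiv b
  set v : FrameIdx → Matrix (Fin 2) (Fin 2) K := fun a => T (ρ.ρ (g a)) with hvdef
  have hgram : gram (ihdTr ρ) g = gramMat v := by
    ext a c
    rw [gram_apply, gramMat_apply, hvdef]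
    simp only
    rw [← map_mul T, ← map_mul ρ.ρ, ihdTr, LinearMap.trace_eq_matrix_trace K b]
    rfl
  rw [hgram] at hg
  obtain ⟨-, hspan⟩ :=
    (Fermat.Agent.S53Lib.isUnit_det_gramMat_iff_basis v).mp (isUnit_iff_ne_zero.mpr hg)
  intro W hW
  -- `W` is stable under every endomorphism
  have hall : ∀ f : Module.End K ρ.V, ∀ x ∈ W, f x ∈ W := by
    intro f
    have hf : T f ∈ Submodule.span K (Set.range v) := by rw [hspan]; trivial
    have key : ∀ M ∈ Submodule.span K (Set.range v), ∀ x ∈ W, T.symm M x ∈ W := by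
      intro M hM
      induction hM using Submodule.span_induction with
      | mem M hM =>
        obtain ⟨a, rfl⟩ := hM
        intro x hx
        rw [hvdef]
        simp only
        rw [AlgEquiv.symm_apply_apply]
        exact hW _ x hx
      | zero =>
        intro x hx
        rw [map_zero, LinearMap.zero_apply]
        exact W.zero_mem
      | add X Y _ _ hX hY =>
        intro x hx
        rw [map_add, LinearMap.add_apply]
        exact W.add_mem (hX x hx) (hY x hx)
      | smul c X _ hX =>
        intro x hx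
        rw [map_smul, LinearMap.smul_apply]
        exact W.smul_mem c (hX x hx)
    intro x hx
    have := key (T f) hf x hx
    rwa [AlgEquiv.symm_apply_apply] at this
  by_cases hbot : W = ⊥
  · exact Or.inl hbot
  · right
    obtain ⟨w, hwW, hw0⟩ := (Submodule.ne_bot_iff W).mp hbot
    obtain ⟨φ, hφ⟩ : ∃ φ : Module.Dual K ρ.V, φ w ≠ 0 := by
      by_contra hcon
      push Not at hcon
      exact hw0 ((Module.forall_dual_apply_eq_zero_iff K w).mp hcon)
    rw [eq_top_iff]
    intro x _
    have h1 := hall ((φ w)⁻¹ • φ.smulRight x) w hwW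
    rw [LinearMap.smul_apply, LinearMap.smulRight_apply, smul_smul, inv_mul_cancel₀ hφ,
      one_smul] at h1
    exact h1

/-- the Gram criterion implies absolute irreducibility -/
theorem IhdGram.isAbsolutelyIrreducible {ρ : ResidualGaloisRep K} (h : IhdGram ρ) :
    ρ.IsAbsolutelyIrreducible :=
  (h.baseChange (AlgebraicClosure K)).isIrreducible

/-- **the trace function determines the representation** under the Gram criterion -/
theorem ihd_isEquiv_of_trace {ρ₁ ρ₂ : ResidualGaloisRep K} (h : IhdGram ρ₁)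
    (htr : ∀ σ, ihdTr ρ₁ σ = ihdTr ρ₂ σ) : ρ₁.IsEquiv ρ₂ := by
  obtain ⟨g, hg⟩ := h
  obtain ⟨e⟩ := Fermat.Agent.Alpha.alpy_equiv_of_trace (GaloisRepAdic.ofResidualGaloisRep ρ₁)
    (GaloisRepAdic.ofResidualGaloisRep ρ₂) htr g (isUnit_iff_ne_zero.mpr hg)
  exact ⟨⟨e.toLinearEquiv, e.map_apply⟩⟩

end Fermat.Agent.Ihara
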