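/-
IHARA package [H1](a) (helper7), file: **Frobenius polynomials under reduction and base change**, and
the resulting equality of trace functions of residual representations.
-/
import Mathlib
import Fermat.Agent.Lib.Ihara.Dat.Gram

set_option autoImplicit false
set_option linter.unusedSectionVars false
set_option linter.unusedVariables false
set_option linter.style.haveILetI false

open IsLocalRing Polynomial
open scoped TensorProduct

namespace Fermat.Agent.Ihara

local notation "Qbar" => AlgebraicClosure ℚ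
local notation "GQ" => (AlgebraicClosure ℚ ≃ₐ[ℚ] AlgebraicClosure ℚ)

open Fermat.Agent.Alpha (AlpyFrob)

/-- a Frobenius polynomial after base change -/
theorem ihd_charpoly_baseChange {A B : Type*} [CommRing A] [CommRing B] [Algebra A B] {V : Type*}
    [AddCommGroup V] [Module A V] [Module.Free A V] [Module.Finite A V] (f : Module.End A V)
    (t : A) (ℓ : ℕ) (hf : LinearMap.charpoly f = X ^ 2 - C t * X + C ((ℓ : A))) :
    LinearMap.charpoly (f.baseChange B) = X ^ 2 - C (algebraMap A B t) * X + C ((ℓ : B)) := by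
  rw [LinearMap.charpoly_baseChange, hf]
  simp only [Polynomial.map_add, Polynomial.map_sub, Polynomial.map_mul, Polynomial.map_pow,
    Polynomial.map_X, Polynomial.map_C]
  rw [map_natCast (algebraMap A B) ℓ]

/-- the Frobenius hypothesis for the residual representation -/
theorem ihd_alpyFrob_residual {A : Type} [CommRing A] [IsLocalRing A] {S : Finset ℕ}
    {ρ : GaloisRepAdic A} {a : ℕ → A} (h : AlpyFrob S ρ a) :
    AlpyFrob S (GaloisRepAdic.ofResidualGaloisRep ρ.residual) (fun ℓ => residue A (a ℓ)) := by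
  intro ℓ hℓ hℓS P hP σ hσ
  exact ihd_charpoly_baseChange (B := ResidueField A) (ρ.ρ σ) (a ℓ) ℓ (h ℓ hℓ hℓS P hP σ hσ)

/-- the Frobenius hypothesis for the base change of a residual representation -/
theorem ihd_alpyFrob_baseChangeAlong {k k' : Type} [Field k] [Field k'] (φ : k →+* k')
    {S : Finset ℕ} {ρbar : ResidualGaloisRep k} {a : ℕ → k}
    (h : AlpyFrob S (GaloisRepAdic.ofResidualGaloisRep ρbar) a) :
    AlpyFrob S (GaloisRepAdic.ofResidualGaloisRep (ρbar.baseChangeAlong φ))
      (fun ℓ => φ (a ℓ)) := by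
  intro ℓ hℓ hℓS P hP σ hσ
  letI : Algebra k k' := φ.toAlgebra
  exact ihd_charpoly_baseChange (B := k') (ρbar.ρ σ) (a ℓ) ℓ (h ℓ hℓ hℓS P hP σ hσ)

/-- residual representations over a field with the same Frobenius polynomials have the same trace
function -/
theorem ihd_tr_eq_of_frob {k : Type} [Field k] (S : Finset ℕ) (ρ₁ ρ₂ : ResidualGaloisRep k)
    (a : ℕ → k) (h₁ : AlpyFrob S (GaloisRepAdic.ofResidualGaloisRep ρ₁) a)
    (h₂ : AlpyFrob S (GaloisRepAdic.ofResidualGaloisRep ρ₂) a) (σ : GQ) :
    ihdTr ρ₁ σ = ihdTr ρ₂ σ :=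
  Fermat.Agent.Alpha.alpy_trace_eq S _ _ a h₁ h₂ σ

/-- equivalent representations have the same characteristic polynomials -/
theorem ihd_charpoly_eq_of_equiv {A : Type} [CommRing A] [IsLocalRing A] {ρ₁ ρ₂ : GaloisRepAdic A}
    (h : ρ₁.IsEquiv ρ₂) (σ : GQ) :
    LinearMap.charpoly (ρ₁.ρ σ) = LinearMap.charpoly (ρ₂.ρ σ) := by
  obtain ⟨e⟩ := h
  have h1 : ρ₂.ρ σ = e.toLinearEquiv.conj (ρ₁.ρ σ) := by
    ext x
    rw [LinearEquiv.conj_apply_apply, e.map_apply, LinearEquiv.apply_symm_apply]
  rw [h1, LinearEquiv.charpoly_conj]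

end Fermat.Agent.Ihara
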