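/-
IHARA package [H1](a) (helper7), file: **the traces of the representations of the points lie in `T`**
(Chebotarev in Frobenius-power form + closedness of the image of `T` in the product of the
coefficient rings of the points).
-/
import Mathlib
import Fermat.Agent.Lib.Ihara.Dat.Cont
import Fermat.Agent.Lib.Alpha.S32.Points
import Fermat.Agent.Lib.Alpha.S32.Rigid
import Fermat.Prelude.Def_CuspForm_HeckeAlgebra

set_option autoImplicit false
set_option linter.unusedSectionVars false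
set_option linter.unusedVariables false
set_option linter.style.haveILetI false

open IsLocalRing Polynomial
open scoped TensorProduct

namespace Fermat.Agent.Ihara

local notation "Qbar" => AlgebraicClosure ℚ
local notation "GQ" => (AlgebraicClosure ℚ ≃ₐ[ℚ] AlgebraicClosure ℚ)

open Fermat.Agent.Alpha (AlpqPoint)
open Fermat.Agent.S31T (s31tPow map_s31tPow)

variable {𝒪 : Type} [CommRing 𝒪] [IsDomain 𝒪] [IsDiscreteValuationRing 𝒪]
  {T : Type} [CommRing T] [Algebra 𝒪 T]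
  {N : ℕ} [NeZero N] {S : Finset ℕ}

/-- **the traces lie in `T`** -/
theorem ihd_trace_mem (hNS : ∀ q : ℕ, q.Prime → q ∣ N → q ∈ S)
    (π : CuspForm.heckeAlgebra N 2 (↑S : Set ℕ) →+* T) {n : ℕ} (P : Fin n → AlpqPoint 𝒪 T)
    (ρ : ∀ i, GaloisRepAdic (P i).R)
    (hρ : ∀ (i : Fin n) (ℓ : ℕ) (hℓ : ℓ.Prime) (hℓN : ¬ ℓ ∣ N) (hℓS : ℓ ∉ (↑S : Set ℕ)),
      ∀ A : ValuationSubring Qbar, A.LiesOverPrime ℓ →
        ∀ σ : GQ, A.IsFrobeniusAt σ ℓ →
          LinearMap.charpoly ((ρ i).ρ σ) =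
            X ^ 2 - C ((P i).ψ (π (CuspForm.heckeAlgebra.T hℓ hℓN hℓS))) * X
              + C ((ℓ : (P i).R)))
    (σ : GQ) : ∃ a : T, ∀ i, (P i).ψ a = (ρ i).trace σ := by
  classical
  haveI := Fermat.Agent.Lib.Helper6.isGalois_rat_algebraicClosure
  let f : T →ₗ[𝒪] (∀ i, (P i).R) := LinearMap.pi fun i => (P i).ψ.toLinearMap
  have hf : ∀ a i, f a i = (P i).ψ a := fun _ _ => rfl
  suffices h : (fun i => (ρ i).trace σ) ∈ LinearMap.range f by
    obtain ⟨a, ha⟩ := h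
    exact ⟨a, fun i => congrFun ha i⟩
  apply ihd_mem_range_of_approx
  intro m
  choose n₀ hn₀ using fun i => ihd_pow_le (P i).inj m
  set n' := Finset.univ.sup n₀ with hn'
  choose Lρ hLfin hLρ using fun i => (ρ i).isAdicContinuous n'
  haveI := hLfin
  let L₀ : IntermediateField ℚ Qbar := ⨆ i, Lρ i
  haveI : FiniteDimensional ℚ L₀ := IntermediateField.finiteDimensional_iSup_of_finite
  set L := IntermediateField.normalClosure ℚ L₀ Qbar with hL
  haveI : FiniteDimensional ℚ L := normalClosure.is_finiteDimensional ℚ L₀ Qbar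
  haveI : Normal ℚ L := normalClosure.normal ℚ L₀ Qbar
  have hL₀L : L₀ ≤ L := IntermediateField.le_normalClosure L₀
  have hLρL : ∀ i, Lρ i ≤ L := fun i => le_trans (le_iSup Lρ i) hL₀L
  obtain ⟨l, hl, hlS, A, φ, hA, hφ, b, hb⟩ :=
    Fermat.Agent.S31T.s31t_exists_frobenius_pow L σ S
  have hlN : ¬ l ∣ N := fun h => hlS (hNS l hl h)
  have hlS' : l ∉ (↑S : Set ℕ) := hlS
  refine ⟨π (s31tPow (CuspForm.heckeAlgebra.T hl hlN hlS')
    (l : CuspForm.heckeAlgebra N 2 (↑S : Set ℕ)) b), ?_⟩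
  refine ihd_pi_mem_smul_top _ _ fun i => ?_
  rw [Pi.sub_apply, hf]
  apply hn₀ i
  apply Ideal.pow_le_pow_right (Finset.le_sup (Finset.mem_univ i) : n₀ i ≤ n')
  have hLi : ∀ τ : GQ, (∀ x ∈ L, τ x = x) →
      ∀ v : (ρ i).V, (ρ i).ρ τ v - v ∈ (maximalIdeal (P i).R ^ n') • (⊤ : Submodule (P i).R (ρ i).V) :=
    fun τ hτ => hLρ i τ fun x hx => hτ x (hLρL i hx)
  have h1 := Fermat.Agent.S31T.s31t_trace_congr (ρ i) n' L hLi σ φ b hb _ _
    (hρ i l hl hlN hlS' A hA φ hφ)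
  have h2 : (P i).ψ (π (s31tPow (CuspForm.heckeAlgebra.T hl hlN hlS')
      (l : CuspForm.heckeAlgebra N 2 (↑S : Set ℕ)) b)) =
      s31tPow ((P i).ψ (π (CuspForm.heckeAlgebra.T hl hlN hlS'))) (l : (P i).R) b := by
    have := map_s31tPow (((P i).ψ : T →+* (P i).R).comp π) (CuspForm.heckeAlgebra.T hl hlN hlS')
      (l : CuspForm.heckeAlgebra N 2 (↑S : Set ℕ)) b
    rw [map_natCast] at this
    exact this
  rw [h2]
  exact h1

end Fermat.Agent.Ihara
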