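/-
IHARA (S43 case (C) via Taylor's Ihara avoidance), package [H1](a)+(c) (helper7), file 4:
**existence of the Hecke–Galois datum over the local Hecke ring `T_θ = IhdT 𝒪 θ`**.

`ihd_exists_datum` : `p` odd, `p ∈ S ⊇ {primes of N}`, `𝒪` a complete discrete valuation ring of
characteristic zero with finite residue field `k` of characteristic `p`, `θ : 𝕋 = heckeAlgebra N 2 S → k`
a ring homomorphism, `ρbar` an absolutely irreducible residual representation over `k` whose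
Frobenius polynomials at the primes `ℓ ∉ S` are `X² - θ(T_ℓ) X + ℓ`.  Then there is a
`CuspForm.HeckeGaloisRepDatum N S 𝒪 θ (IhdT 𝒪 θ)` whose `π` is `ihdPi 𝒪 θ` and whose residual
representation is `ρbar` (in the literal shape of the hypothesis `hres` of S54).

Proof: `T_θ` is reduced (`ihdT_isReduced`), hence embeds in a finite product of discrete valuation
rings by points `ψ i` (`ihd_exists_points`) each carrying the representation `ρ i` of S30; the `ρ i`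
are odd (`ihd_det_conj`) and residually `ρbar` (Chebotarev + the Gram criterion), their traces lie
in `T_θ` (`ihd_trace_mem`), so Carayol's lemma (`ihc_carayol`, helper6) descends them to `T_θ`.
-/
import Mathlib
import Fermat.Agent.Lib.Ihara.Dat.Hecke
import Fermat.Agent.Lib.Ihara.Dat.Reduced
import Fermat.Agent.Lib.Ihara.Dat.Points
import Fermat.Agent.Lib.Ihara.Dat.Trace
import Fermat.Agent.Lib.Ihara.Dat.Resid
import Fermat.Agent.Lib.Ihara.Car.Main

set_option autoImplicit false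
set_option linter.unusedSectionVars false
set_option linter.unusedVariables false
set_option linter.style.haveILetI false

open IsLocalRing Polynomial
open scoped TensorProduct

namespace Fermat.Agent.Ihara

local notation "Qbar" => AlgebraicClosure ℚ
local notation "GQ" => (AlgebraicClosure ℚ ≃ₐ[ℚ] AlgebraicClosure ℚ)

open Fermat.Agent.Alpha (AlpqPoint AlpyFrob)

section Eig

variable {N : ℕ} [NeZero N] {S : Finset ℕ} {B : Type*} [Zero B]

open Classical in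
/-- the Hecke eigenvalues `f(T_ℓ)` of a map `f` on the Hecke algebra, as a function of `ℓ` (zero at
the bad `ℓ`) -/
noncomputable def ihdEig (f : CuspForm.heckeAlgebra N 2 (↑S : Set ℕ) → B) (ℓ : ℕ) : B :=
  if h : ℓ.Prime ∧ ¬ ℓ ∣ N ∧ ℓ ∉ (↑S : Set ℕ) then
    f (CuspForm.heckeAlgebra.T h.1 h.2.1 h.2.2) else 0

theorem ihdEig_eq (f : CuspForm.heckeAlgebra N 2 (↑S : Set ℕ) → B) {ℓ : ℕ}
    (hℓ : ℓ.Prime) (hℓN : ¬ ℓ ∣ N) (hℓS : ℓ ∉ (↑S : Set ℕ)) :
    ihdEig f ℓ = f (CuspForm.heckeAlgebra.T hℓ hℓN hℓS) := by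
  unfold ihdEig
  rw [dif_pos ⟨hℓ, hℓN, hℓS⟩]

theorem ihdEig_comp {B' : Type*} [Zero B'] (f : CuspForm.heckeAlgebra N 2 (↑S : Set ℕ) → B)
    (g : B → B') (hg : g 0 = 0) (ℓ : ℕ) : g (ihdEig f ℓ) = ihdEig (fun t => g (f t)) ℓ := by
  unfold ihdEig
  split_ifs with h
  · rfl
  · exact hg

/-- the Frobenius hypothesis in the form `AlpyFrob` -/
theorem ihd_alpyFrob {A : Type} [CommRing A] [IsLocalRing A]
    (hNS : ∀ q : ℕ, q.Prime → q ∣ N → q ∈ S) (ρ : GaloisRepAdic A)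
    (f : CuspForm.heckeAlgebra N 2 (↑S : Set ℕ) → A)
    (h : ∀ (ℓ : ℕ) (hℓ : ℓ.Prime) (hℓN : ¬ ℓ ∣ N) (hℓS : ℓ ∉ (↑S : Set ℕ)),
      ∀ P : ValuationSubring Qbar, P.LiesOverPrime ℓ → ∀ σ : GQ, P.IsFrobeniusAt σ ℓ →
        LinearMap.charpoly (ρ.ρ σ) =
          X ^ 2 - C (f (CuspForm.heckeAlgebra.T hℓ hℓN hℓS)) * X + C ((ℓ : A))) :
    AlpyFrob S ρ (ihdEig f) := by
  intro ℓ hℓ hℓS P hP σ hσ
  have hℓN : ¬ ℓ ∣ N := fun h' => hℓS (hNS ℓ hℓ h')
  have hℓS' : ℓ ∉ (↑S : Set ℕ) := hℓS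
  rw [ihdEig_eq f hℓ hℓN hℓS']
  exact h ℓ hℓ hℓN hℓS' P hP σ hσ

end Eig

section Residual

variable {𝒪 : Type} [CommRing 𝒪] [IsLocalRing 𝒪]
  {N : ℕ} [NeZero N] {S : Finset ℕ}

/-- **the residual representation of a representation with the Frobenius polynomials of a lift of
`θ`**: it satisfies the Gram criterion (hence is absolutely irreducible) and is `ρbar` -/
theorem ihd_residual_of_frob (hNS : ∀ q : ℕ, q.Prime → q ∣ N → q ∈ S)
    (θ : CuspForm.heckeAlgebra N 2 (↑S : Set ℕ) →+* ResidueField 𝒪)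
    (ρbar : ResidualGaloisRep (ResidueField 𝒪)) (habs : ρbar.IsAbsolutelyIrreducible)
    (hfrob : ∀ (ℓ : ℕ) (hℓ : ℓ.Prime) (hℓN : ¬ ℓ ∣ N) (hℓS : ℓ ∉ (↑S : Set ℕ)),
      ∀ A : ValuationSubring (AlgebraicClosure ℚ), A.LiesOverPrime ℓ →
        ∀ σ : AlgebraicClosure ℚ ≃ₐ[ℚ] AlgebraicClosure ℚ, A.IsFrobeniusAt σ ℓ →
          LinearMap.charpoly (ρbar.ρ σ) =
            X ^ 2 - C (θ (CuspForm.heckeAlgebra.T hℓ hℓN hℓS)) * X + C ((ℓ : ResidueField 𝒪)))
    {T : Type} [CommRing T] [IsLocalRing T] [Algebra 𝒪 T] [IsLocalHom (algebraMap 𝒪 T)]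
    (π : CuspForm.heckeAlgebra N 2 (↑S : Set ℕ) →+* T)
    (hπ : ∀ t, residue T (π t) = ResidueField.map (algebraMap 𝒪 T) (θ t))
    (ρ : GaloisRepAdic T)
    (hchar : ∀ (ℓ : ℕ) (hℓ : ℓ.Prime) (hℓN : ¬ ℓ ∣ N) (hℓS : ℓ ∉ (↑S : Set ℕ)),
      ∀ A : ValuationSubring Qbar, A.LiesOverPrime ℓ → ∀ σ : GQ, A.IsFrobeniusAt σ ℓ →
        LinearMap.charpoly (ρ.ρ σ) =
          X ^ 2 - C (π (CuspForm.heckeAlgebra.T hℓ hℓN hℓS)) * X + C ((ℓ : T))) :
    IhdGram ρ.residual ∧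
      ρ.residual.IsEquiv (ρbar.baseChangeAlong (ResidueField.map (algebraMap 𝒪 T))) := by
  have hG0 : IhdGram ρbar := ihdGram_of_abs ρbar habs
  have hF0 : AlpyFrob S (GaloisRepAdic.ofResidualGaloisRep ρbar) (ihdEig θ) :=
    ihd_alpyFrob hNS (GaloisRepAdic.ofResidualGaloisRep ρbar) θ hfrob
  have hFT : AlpyFrob S ρ (ihdEig fun t => π t) := ihd_alpyFrob hNS ρ (fun t => π t) hchar
  have htrT : ∀ σ, ihdTr (ρbar.baseChangeAlong (ResidueField.map (algebraMap 𝒪 T))) σ =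
      ihdTr ρ.residual σ := by
    intro σ
    refine ihd_tr_eq_of_frob S _ _ _
      (ihd_alpyFrob_baseChangeAlong (ResidueField.map (algebraMap 𝒪 T)) hF0) ?_ σ
    have h1 := ihd_alpyFrob_residual hFT
    have h2' : (fun ℓ => residue T (ihdEig (fun t => π t) ℓ)) =
        fun ℓ => ResidueField.map (algebraMap 𝒪 T) (ihdEig θ ℓ) := by
      funext ℓ
      rw [ihdEig_comp _ (residue T) (map_zero _),
        ihdEig_comp (B' := ResidueField T) θ (ResidueField.map (algebraMap 𝒪 T)) (map_zero _)]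
      congr 1
      funext t
      exact hπ t
    rw [h2'] at h1
    exact h1
  have hGT : IhdGram ρ.residual :=
    (hG0.baseChangeAlong (ResidueField.map (algebraMap 𝒪 T))).of_trace_eq htrT
  exact ⟨hGT, ihd_isEquiv_of_trace hGT fun σ => (htrT σ).symm⟩

end Residual

/-- **the Hecke–Galois datum over the local Hecke ring of a modular residual representation** -/
theorem ihd_exists_datum {p : ℕ} (hp : p.Prime) (hp2 : p ≠ 2)
    {𝒪 : Type} [CommRing 𝒪] [IsDomain 𝒪] [IsDiscreteValuationRing 𝒪]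
    [IsAdicComplete (maximalIdeal 𝒪) 𝒪] [Finite (ResidueField 𝒪)] [CharZero 𝒪]
    (hp𝒪 : (p : 𝒪) ∈ maximalIdeal 𝒪)
    {N : ℕ} [NeZero N] {S : Finset ℕ} (hpS : p ∈ S) (hNS : ∀ q : ℕ, q.Prime → q ∣ N → q ∈ S)
    (θ : CuspForm.heckeAlgebra N 2 (↑S : Set ℕ) →+* ResidueField 𝒪)
    (ρbar : ResidualGaloisRep (ResidueField 𝒪)) (habs : ρbar.IsAbsolutelyIrreducible)
    (hfrob : ∀ (ℓ : ℕ) (hℓ : ℓ.Prime) (hℓN : ¬ ℓ ∣ N) (hℓS : ℓ ∉ (↑S : Set ℕ)),
      ∀ A : ValuationSubring (AlgebraicClosure ℚ), A.LiesOverPrime ℓ →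
        ∀ σ : AlgebraicClosure ℚ ≃ₐ[ℚ] AlgebraicClosure ℚ, A.IsFrobeniusAt σ ℓ →
          LinearMap.charpoly (ρbar.ρ σ) =
            X ^ 2 - C (θ (CuspForm.heckeAlgebra.T hℓ hℓN hℓS)) * X + C ((ℓ : ResidueField 𝒪))) :
    ∃ H : CuspForm.HeckeGaloisRepDatum N (↑S : Set ℕ) 𝒪 θ (IhdT 𝒪 θ),
      H.π = ihdPi 𝒪 θ ∧
      H.ρ.residual.IsEquiv
        (ρbar.baseChangeAlong (ResidueField.map (algebraMap 𝒪 (IhdT 𝒪 θ)))) := by
  classical
  haveI : IsReduced (IhdT 𝒪 θ) := ihdT_isReduced 𝒪 θ hNS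
  obtain ⟨n, P, ρ, hinj, hρ⟩ :=
    ihd_exists_points (𝒪 := 𝒪) (T := IhdT 𝒪 θ) hp hp𝒪 hpS hNS (ihdPi 𝒪 θ)
  -- the Gram criterion for `ρbar`
  have hG0 : IhdGram ρbar := ihdGram_of_abs ρbar habs
  have hF0 : AlpyFrob S (GaloisRepAdic.ofResidualGaloisRep ρbar) (ihdEig θ) :=
    ihd_alpyFrob hNS (GaloisRepAdic.ofResidualGaloisRep ρbar) θ hfrob
  -- residues of the eigenvalues at the points
  have hres : ∀ (i : Fin n) (t : CuspForm.heckeAlgebra N 2 (↑S : Set ℕ)),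
      residue (P i).R ((P i).ψ (ihdPi 𝒪 θ t)) =
        ResidueField.map (algebraMap 𝒪 (P i).R) (θ t) := by
    intro i t
    obtain ⟨a, ha⟩ := residue_surjective (θ t)
    have h1 : ihdPi 𝒪 θ t - algebraMap 𝒪 (IhdT 𝒪 θ) a ∈ maximalIdeal (IhdT 𝒪 θ) := by
      rw [← residue_eq_zero_iff, map_sub, ihd_residue_pi, ← ha, ResidueField.map_residue,
        sub_self]
    haveI := (P i).isLocalHom_ψ
    have h2 := map_nonunit ((P i).ψ : IhdT 𝒪 θ →+* (P i).R) _ h1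
    have h3 : (P i).ψ (ihdPi 𝒪 θ t) - algebraMap 𝒪 (P i).R a ∈ maximalIdeal (P i).R := by
      have e : ((P i).ψ : IhdT 𝒪 θ →+* (P i).R) (ihdPi 𝒪 θ t - algebraMap 𝒪 (IhdT 𝒪 θ) a) =
          (P i).ψ (ihdPi 𝒪 θ t) - algebraMap 𝒪 (P i).R a := by
        rw [RingHom.coe_coe, map_sub, AlgHom.commutes]
      rw [← e]
      exact h2
    rw [← residue_eq_zero_iff, map_sub, sub_eq_zero] at h3
    rw [h3, ← ha, ResidueField.map_residue]
  -- the Frobenius hypothesis at the points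
  have hFi : ∀ i, AlpyFrob S (ρ i) (ihdEig fun t => (P i).ψ (ihdPi 𝒪 θ t)) := fun i =>
    ihd_alpyFrob hNS (ρ i) (fun t => (P i).ψ (ihdPi 𝒪 θ t)) (hρ i)
  -- the residual representations of the points have the trace function of `ρbar`
  have htri : ∀ i σ, ihdTr (ρbar.baseChangeAlong (ResidueField.map (algebraMap 𝒪 (P i).R))) σ =
      ihdTr (ρ i).residual σ := by
    intro i σ
    refine ihd_tr_eq_of_frob S _ _ _
      (ihd_alpyFrob_baseChangeAlong (ResidueField.map (algebraMap 𝒪 (P i).R)) hF0) ?_ σ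
    have h1 := ihd_alpyFrob_residual (hFi i)
    have h2 : (fun ℓ => residue (P i).R (ihdEig (fun t => (P i).ψ (ihdPi 𝒪 θ t)) ℓ)) =
        fun ℓ => ResidueField.map (algebraMap 𝒪 (P i).R) (ihdEig θ ℓ) := by
      funext ℓ
      rw [ihdEig_comp _ (residue (P i).R) (map_zero _),
        ihdEig_comp (B' := ResidueField (P i).R) θ
          (ResidueField.map (algebraMap 𝒪 (P i).R)) (map_zero _)]
      congr 1
      funext t
      exact hres i t
    rw [h2] at h1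
    exact h1
  have hGi : ∀ i, IhdGram (ρ i).residual := fun i =>
    (hG0.baseChangeAlong (ResidueField.map (algebraMap 𝒪 (P i).R))).of_trace_eq (htri i)
  -- there is at least one point
  have hn : 0 < n := by
    rcases Nat.eq_zero_or_pos n with h0 | h0
    · exfalso
      subst h0
      exact one_ne_zero (hinj (1 : IhdT 𝒪 θ) fun i => i.elim0)
    · exact h0
  -- `2` is a unit
  have hpT : (p : IhdT 𝒪 θ) ∈ maximalIdeal (IhdT 𝒪 θ) := by
    have := map_nonunit (algebraMap 𝒪 (IhdT 𝒪 θ)) _ hp𝒪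
    rwa [map_natCast] at this
  have h2 : IsUnit (2 : IhdT 𝒪 θ) := by
    by_contra h2n
    have h2m : (2 : IhdT 𝒪 θ) ∈ maximalIdeal (IhdT 𝒪 θ) := h2n
    obtain ⟨m, hm⟩ : Odd p := hp.eq_two_or_odd'.resolve_left hp2
    have h1 : (1 : IhdT 𝒪 θ) ∈ maximalIdeal (IhdT 𝒪 θ) := by
      have e : (1 : IhdT 𝒪 θ) = (p : IhdT 𝒪 θ) - 2 * (m : IhdT 𝒪 θ) := by
        rw [hm]
        push_cast
        ring
      rw [e]
      exact Ideal.sub_mem _ hpT (Ideal.mul_mem_right _ _ h2m)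
    exact (Ideal.ne_top_iff_one _).mp (maximalIdeal.isMaximal (IhdT 𝒪 θ)).ne_top h1
  -- oddness
  have hodd : ∀ i, LinearMap.det ((ρ i).ρ complexConjugation) = -1 := by
    intro i
    refine ihd_det_conj hp hp2 ((P i).natCast_mem hp𝒪) (ρ i) S ?_
    intro l hl hlS A φ hA hφ
    have hlN : ¬ l ∣ N := fun h' => hlS (hNS l hl h')
    have hlS' : l ∉ (↑S : Set ℕ) := hlS
    exact ihd_det_of_charpoly (ρ i).finrank_eq _ _ _ (hρ i l hl hlN hlS' A hA φ hφ)
  -- Carayol's lemma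
  obtain ⟨ρT, hequiv, -⟩ := ihc_carayol (fun i => (P i).R)
    (fun i => ((P i).ψ : IhdT 𝒪 θ →+* (P i).R)) (fun i => (P i).isLocalHom_ψ)
    (fun a ha => hinj a ha) h2 ρ
    (fun σ => ihd_trace_mem hNS (ihdPi 𝒪 θ) P ρ hρ σ) complexConjugation
    complexConjugation_mul_self hodd ⟨⟨0, hn⟩, (hGi _).isIrreducible⟩
    (ihd_hcont (fun i => (P i).R) (fun i => (P i).ψ) hinj (fun i m => ihd_pow_le (P i).inj m))
  -- the Frobenius polynomials over `T`
  have hchar : ∀ (ℓ : ℕ) (hℓ : ℓ.Prime) (hℓN : ¬ ℓ ∣ N) (hℓS : ℓ ∉ (↑S : Set ℕ)),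
      ∀ A : ValuationSubring Qbar, A.LiesOverPrime ℓ → ∀ σ : GQ, A.IsFrobeniusAt σ ℓ →
        LinearMap.charpoly (ρT.ρ σ) =
          X ^ 2 - C (ihdPi 𝒪 θ (CuspForm.heckeAlgebra.T hℓ hℓN hℓS)) * X
            + C ((ℓ : IhdT 𝒪 θ)) := by
    intro ℓ hℓ hℓN hℓS A hA σ hσ
    have hmap : ∀ i, (LinearMap.charpoly (ρT.ρ σ)).map ((P i).ψ : IhdT 𝒪 θ →+* (P i).R) =
        (X ^ 2 - C (ihdPi 𝒪 θ (CuspForm.heckeAlgebra.T hℓ hℓN hℓS)) * X
          + C ((ℓ : IhdT 𝒪 θ))).map ((P i).ψ : IhdT 𝒪 θ →+* (P i).R) := by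
      intro i
      have h1 := ihd_charpoly_eq_of_equiv (hequiv i) σ
      rw [hρ i ℓ hℓ hℓN hℓS A hA σ hσ] at h1
      letI : Algebra (IhdT 𝒪 θ) (P i).R := ((P i).ψ : IhdT 𝒪 θ →+* (P i).R).toAlgebra
      have h3 : LinearMap.charpoly ((ρT.baseChangeAlong ((P i).ψ : IhdT 𝒪 θ →+* (P i).R)
          (P i).isLocalHom_ψ).ρ σ) =
          (LinearMap.charpoly (ρT.ρ σ)).map ((P i).ψ : IhdT 𝒪 θ →+* (P i).R) :=
        LinearMap.charpoly_baseChange (A := (P i).R) (ρT.ρ σ)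
      rw [← h3, h1]
      simp only [Polynomial.map_add, Polynomial.map_sub, Polynomial.map_mul, Polynomial.map_pow,
        Polynomial.map_X, Polynomial.map_C, map_natCast, RingHom.coe_coe, Polynomial.map_natCast]
    ext k
    rw [← sub_eq_zero]
    apply hinj
    intro i
    have := congrArg (fun q => q.coeff k) (hmap i)
    simp only [Polynomial.coeff_map] at this
    rw [map_sub, sub_eq_zero]
    exact this
  -- the residual representation
  obtain ⟨hGT, hequivT⟩ := ihd_residual_of_frob hNS θ ρbar habs hfrob (ihdPi 𝒪 θ)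
    (ihd_residue_pi 𝒪 θ) ρT hchar
  exact ⟨{ π := ihdPi 𝒪 θ
           residue_π := ihd_residue_pi 𝒪 θ
           adjoin_range_π := ihd_adjoin_range_pi 𝒪 θ
           exists_point := ihd_exists_point 𝒪 θ
           residue_surjective := ihd_residue_surjective 𝒪 θ
           ρ := ρT
           charpoly_frob := hchar
           residual_absIrr := hGT.isAbsolutelyIrreducible }, rfl, hequivT⟩

end Fermat.Agent.Ihara
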