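/-
IHARA package [H1] / (Tw5) (helper7), file: **points of a Hecke ring are eigensystems occurring in the
module**.

`ihd_exists_eigenvector` : `𝒪'` a Noetherian domain, `T'` a commutative `𝒪'`-algebra which is finite
as a module, `M'` a finitely generated faithful `T'`-module and `ψ : T' →ₐ[𝒪'] 𝒪'`.  Then there is
`x ≠ 0` in `M'` with `t • x = ψ t • x` for all `t` (the kernel of `ψ` is a minimal prime by
incomparability, and minimal primes of the annihilator are associated primes).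
-/
import Mathlib

set_option autoImplicit false
set_option linter.unusedSectionVars false
set_option linter.unusedVariables false
set_option linter.style.haveILetI false

namespace Fermat.Agent.Ihara

variable {𝒪' : Type*} [CommRing 𝒪'] [IsDomain 𝒪'] [IsNoetherianRing 𝒪']
  {T' : Type*} [CommRing T'] [Algebra 𝒪' T'] [Module.Finite 𝒪' T']
  {M' : Type*} [AddCommGroup M'] [Module T' M'] [Module.Finite T' M']

/-- the kernel of an `𝒪'`-point of a finite `𝒪'`-algebra is a minimal prime -/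
theorem ihd_ker_mem_minimalPrimes (ψ : T' →ₐ[𝒪'] 𝒪') :
    RingHom.ker (ψ : T' →+* 𝒪') ∈ (⊥ : Ideal T').minimalPrimes := by
  haveI : Algebra.IsIntegral 𝒪' T' := Algebra.IsIntegral.of_finite 𝒪' T'
  have hprime : (RingHom.ker (ψ : T' →+* 𝒪')).IsPrime := RingHom.ker_isPrime _
  refine ⟨⟨hprime, bot_le⟩, ?_⟩
  rintro 𝔮 ⟨h𝔮, -⟩ h𝔮𝔭
  haveI := h𝔮
  -- the image of `ker ψ` in the domain `T' ⧸ 𝔮` meets `𝒪'` trivially
  haveI : Algebra.IsIntegral 𝒪' (T' ⧸ 𝔮) := Algebra.IsIntegral.of_finite 𝒪' (T' ⧸ 𝔮)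
  have hcomap : ((RingHom.ker (ψ : T' →+* 𝒪')).map (Ideal.Quotient.mk 𝔮)).comap
      (algebraMap 𝒪' (T' ⧸ 𝔮)) = ⊥ := by
    rw [eq_bot_iff]
    intro c hc
    rw [Ideal.mem_comap, IsScalarTower.algebraMap_apply 𝒪' T' (T' ⧸ 𝔮),
      Ideal.Quotient.algebraMap_eq] at hc
    have h1 : algebraMap 𝒪' T' c ∈ ((RingHom.ker (ψ : T' →+* 𝒪')).map
        (Ideal.Quotient.mk 𝔮)).comap (Ideal.Quotient.mk 𝔮) := hc
    rw [Ideal.comap_map_of_surjective _ Ideal.Quotient.mk_surjective,
      ← RingHom.ker_eq_comap_bot, Ideal.mk_ker, sup_eq_left.mpr h𝔮𝔭, RingHom.mem_ker,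
      RingHom.coe_coe, AlgHom.commutes] at h1
    rw [Ideal.mem_bot]
    exact h1
  have hbot := Ideal.eq_bot_of_comap_eq_bot (R := 𝒪') hcomap
  rw [Ideal.map_eq_bot_iff_le_ker, Ideal.mk_ker] at hbot
  exact hbot

/-- **every point of a Hecke ring is an eigensystem occurring in a faithful module** -/
theorem ihd_exists_eigenvector (hfaith : ∀ t : T', (∀ x : M', t • x = 0) → t = 0)
    (ψ : T' →ₐ[𝒪'] 𝒪') :
    ∃ x : M', x ≠ 0 ∧ ∀ t : T', t • x = algebraMap 𝒪' T' (ψ t) • x := by
  haveI : IsNoetherianRing T' := IsNoetherianRing.of_finite 𝒪' T'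
  have hann : Module.annihilator T' M' = ⊥ := by
    rw [eq_bot_iff]
    intro t ht
    rw [Ideal.mem_bot]
    exact hfaith t fun x => Module.mem_annihilator.mp ht x
  have hmin := ihd_ker_mem_minimalPrimes ψ
  rw [← hann] at hmin
  have hass := Module.associatedPrimes.minimalPrimes_annihilator_subset_associatedPrimes T' M' hmin
  obtain ⟨hprime, x, hx⟩ := (isAssociatedPrime_iff).mp hass
  refine ⟨x, ?_, fun t => ?_⟩
  · rintro rfl
    apply hprime.ne_top
    rw [hx, eq_top_iff]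
    intro t _
    rw [Submodule.mem_colon_singleton, smul_zero]
    exact Submodule.zero_mem _
  · have h1 : t - algebraMap 𝒪' T' (ψ t) ∈ RingHom.ker (ψ : T' →+* 𝒪') := by
      rw [RingHom.mem_ker, map_sub, RingHom.coe_coe, AlgHom.commutes]
      exact sub_self _
    rw [hx, Submodule.mem_colon_singleton, Submodule.mem_bot, sub_smul, sub_eq_zero] at h1
    exact h1

end Fermat.Agent.Ihara
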