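/-
IHARA package [H1] / (Tw5) (helper7), file: **the Hecke ring of a Hecke module**.

`𝕋 = heckeAlgebra N 2 S`, `𝒪` a complete discrete valuation ring, `θ : 𝕋 →+* k`.  For an `𝒪`-module
`M` with a ring homomorphism `a : 𝕋 →+* End_𝒪 M`:

* `ihdAct 𝒪 a : 𝒪 ⊗ 𝕋 →ₐ[𝒪] End_𝒪 M`;
* `ihdPart 𝒪 a θ : Submodule 𝒪 M` — the `θ`-part `e M` (`e = ihdIdem`, the idempotent of `ker θ̃`);
* `ihdPartAct 𝒪 a θ : IhdT 𝒪 θ →ₐ[𝒪] End_𝒪 (ihdPart 𝒪 a θ)`;
* `IhdImg 𝒪 a θ := IhdT 𝒪 θ ⧸ ker` — **the Hecke ring of `M` at `θ`**, with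
  `ihdImgMk : IhdT 𝒪 θ →ₐ[𝒪] IhdImg 𝒪 a θ` (onto), `ihdImgPi : 𝕋 →+* IhdImg 𝒪 a θ`,
  `ihdImgAct : IhdImg 𝒪 a θ →ₐ[𝒪] End_𝒪 (ihdPart 𝒪 a θ)` (injective),
  and the instances: local (if the part is non-zero), Noetherian, complete, finite free over `𝒪`
  (if `M` is finite and torsion-free), `IsLocalHom (algebraMap 𝒪 _)`.
-/
import Mathlib
import Fermat.Agent.Lib.Ihara.Dat.Hecke

set_option autoImplicit false
set_option linter.unusedSectionVars false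
set_option linter.unusedVariables false
set_option linter.style.haveILetI false

open IsLocalRing Polynomial
open scoped TensorProduct

namespace Fermat.Agent.Ihara

section FiniteLocal

variable (𝒪 : Type*) [CommRing 𝒪] [IsLocalRing 𝒪] [IsNoetherianRing 𝒪]
  (A : Type*) [CommRing A] [IsLocalRing A] [Algebra 𝒪 A] [Module.Finite 𝒪 A]

/-- the structure map of a finite local algebra over a local ring is a local homomorphism -/
theorem ihd_isLocalHom_of_finite : IsLocalHom (algebraMap 𝒪 A) := by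
  refine ⟨fun a ha => ?_⟩
  by_contra hna
  have hmem : a ∈ maximalIdeal 𝒪 := (mem_maximalIdeal a).mpr hna
  have h1 : algebraMap 𝒪 A a ∈ maximalIdeal A :=
    ihd_maximal_ge (𝒪 := 𝒪) (maximalIdeal A) (Ideal.mem_map_of_mem _ hmem)
  exact (mem_maximalIdeal _).mp h1 ha

/-- a finite local algebra over a complete Noetherian local ring is complete -/
theorem ihd_isAdicComplete_of_finite_local [IsAdicComplete (maximalIdeal 𝒪) 𝒪] :
    IsAdicComplete (maximalIdeal A) A := by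
  have h1 : IsAdicComplete ((maximalIdeal 𝒪).map (algebraMap 𝒪 A)) A :=
    ihd_isAdicComplete_map 𝒪 A
  haveI : IsArtinianRing (A ⧸ (maximalIdeal 𝒪).map (algebraMap 𝒪 A)) :=
    ihd_isArtinianRing_quotient 𝒪 A
  obtain ⟨c, hc⟩ := exists_maximalIdeal_pow_le_of_isArtinianRing_quotient
    ((maximalIdeal 𝒪).map (algebraMap 𝒪 A))
  have hIM : (maximalIdeal 𝒪).map (algebraMap 𝒪 A) ≤ maximalIdeal A :=
    ihd_maximal_ge (𝒪 := 𝒪) _
  refine ihd_isAdicComplete_of_le _ _ hIM (c := c + 1) (Nat.succ_ne_zero c) ?_ h1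
  rw [pow_succ]
  exact Ideal.mul_le_left.trans hc

end FiniteLocal

section Act

variable (𝒪 : Type) [CommRing 𝒪] {N : ℕ} [NeZero N] {S : Set ℕ}
  {M : Type*} [AddCommGroup M] [Module 𝒪 M]
  (a : CuspForm.heckeAlgebra N 2 S →+* Module.End 𝒪 M)

/-- the action of `𝒪 ⊗ 𝕋` on a Hecke module -/
noncomputable def ihdAct : IhdB 𝒪 N S →ₐ[𝒪] Module.End 𝒪 M :=
  Algebra.TensorProduct.lift (Algebra.ofId 𝒪 (Module.End 𝒪 M)) a.toIntAlgHom
    (fun c t => Algebra.commute_algebraMap_left c _)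

@[simp] theorem ihdAct_tmul (c : 𝒪) (t : CuspForm.heckeAlgebra N 2 S) :
    ihdAct 𝒪 a (c ⊗ₜ[ℤ] t) = c • a t := by
  rw [ihdAct, Algebra.TensorProduct.lift_tmul, Algebra.ofId_apply, Algebra.algebraMap_eq_smul_one,
    smul_mul_assoc, one_mul]
  rfl

theorem ihdAct_commute (b b' : IhdB 𝒪 N S) : Commute (ihdAct 𝒪 a b) (ihdAct 𝒪 a b') := by
  rw [Commute, SemiconjBy, ← map_mul, ← map_mul, mul_comm]

/-- an endomorphism commuting with the Hecke operators commutes with the action of `𝒪 ⊗ 𝕋` -/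
theorem ihdAct_commute_of_forall (f : Module.End 𝒪 M) (hf : ∀ t, Commute f (a t))
    (b : IhdB 𝒪 N S) : Commute f (ihdAct 𝒪 a b) := by
  induction b using TensorProduct.induction_on with
  | zero => rw [map_zero]; exact Commute.zero_right f
  | tmul c t =>
    rw [ihdAct_tmul]
    exact (hf t).smul_right c
  | add x y hx hy => rw [map_add]; exact hx.add_right hy

end Act

section Part

variable (𝒪 : Type) [CommRing 𝒪] [IsDomain 𝒪] [IsDiscreteValuationRing 𝒪]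
  [IsAdicComplete (maximalIdeal 𝒪) 𝒪]
  {N : ℕ} [NeZero N] {S : Set ℕ}
  {M : Type*} [AddCommGroup M] [Module 𝒪 M]
  (a : CuspForm.heckeAlgebra N 2 S →+* Module.End 𝒪 M)
  (θ : CuspForm.heckeAlgebra N 2 S →+* ResidueField 𝒪)

/-- the idempotent endomorphism cutting out the `θ`-part -/
noncomputable def ihdProj : Module.End 𝒪 M := ihdAct 𝒪 a (ihdIdem 𝒪 (ihdMax 𝒪 θ))

theorem ihdProj_idem : ihdProj 𝒪 a θ * ihdProj 𝒪 a θ = ihdProj 𝒪 a θ := by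
  rw [ihdProj, ← map_mul, (ihdIdem_idem 𝒪 (ihdMax 𝒪 θ)).eq]

theorem ihdProj_commute (b : IhdB 𝒪 N S) : Commute (ihdProj 𝒪 a θ) (ihdAct 𝒪 a b) :=
  ihdAct_commute 𝒪 a _ _

/-- **the `θ`-part** of a Hecke module -/
noncomputable def ihdPart : Submodule 𝒪 M := LinearMap.range (ihdProj 𝒪 a θ)

theorem mem_ihdPart_iff (x : M) : x ∈ ihdPart 𝒪 a θ ↔ ihdProj 𝒪 a θ x = x := by
  constructor
  · rintro ⟨y, rfl⟩
    rw [← Module.End.mul_apply, ihdProj_idem]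
  · intro h
    exact ⟨x, h⟩

theorem ihdProj_mem (x : M) : ihdProj 𝒪 a θ x ∈ ihdPart 𝒪 a θ := ⟨x, rfl⟩

/-- an endomorphism commuting with the Hecke operators preserves the `θ`-part -/
theorem ihdPart_stable (f : Module.End 𝒪 M) (hf : ∀ t, Commute f (a t)) (x : M)
    (hx : x ∈ ihdPart 𝒪 a θ) : f x ∈ ihdPart 𝒪 a θ := by
  rw [mem_ihdPart_iff] at hx ⊢
  have h := ihdAct_commute_of_forall 𝒪 a f hf (ihdIdem 𝒪 (ihdMax 𝒪 θ))
  have h1 : ihdProj 𝒪 a θ (f x) = f (ihdProj 𝒪 a θ x) := by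
    have := LinearMap.congr_fun h.eq x
    simp only [Module.End.mul_apply] at this
    exact this.symm
  rw [h1, hx]

theorem ihdAct_mem (b : IhdB 𝒪 N S) (x : M) (hx : x ∈ ihdPart 𝒪 a θ) :
    ihdAct 𝒪 a b x ∈ ihdPart 𝒪 a θ := by
  rw [mem_ihdPart_iff] at hx ⊢
  have h1 : ihdProj 𝒪 a θ (ihdAct 𝒪 a b x) = ihdAct 𝒪 a b (ihdProj 𝒪 a θ x) := by
    have := LinearMap.congr_fun (ihdProj_commute 𝒪 a θ b).eq x
    simp only [Module.End.mul_apply] at this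
    exact this
  rw [h1, hx]

/-- the action of `𝒪 ⊗ 𝕋` on the `θ`-part -/
noncomputable def ihdPartActB : IhdB 𝒪 N S →ₐ[𝒪] Module.End 𝒪 (ihdPart 𝒪 a θ) where
  toFun b := (ihdAct 𝒪 a b).restrict (ihdAct_mem 𝒪 a θ b)
  map_one' := by
    ext x
    simp [LinearMap.restrict_apply]
  map_mul' b b' := by
    ext x
    simp [LinearMap.restrict_apply]
  map_zero' := by
    ext x
    simp [LinearMap.restrict_apply]
  map_add' b b' := by
    ext x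
    simp [LinearMap.restrict_apply]
  commutes' c := by
    ext x
    simp [LinearMap.restrict_apply, Algebra.algebraMap_eq_smul_one]

@[simp] theorem ihdPartActB_apply (b : IhdB 𝒪 N S) (x : ihdPart 𝒪 a θ) :
    ((ihdPartActB 𝒪 a θ b x : ihdPart 𝒪 a θ) : M) = ihdAct 𝒪 a b (x : M) := rfl

theorem ihdPartActB_ker (b : IhdB 𝒪 N S) (hb : b ∈ ihdKer 𝒪 (ihdMax 𝒪 θ)) :
    ihdPartActB 𝒪 a θ b = 0 := by
  rw [mem_ihdKer_iff] at hb
  ext x
  rw [ihdPartActB_apply, LinearMap.zero_apply, Submodule.coe_zero]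
  have hx := (mem_ihdPart_iff 𝒪 a θ (x : M)).mp x.2
  rw [← hx, ihdProj, ← Module.End.mul_apply, ← map_mul, mul_comm, hb, map_zero,
    LinearMap.zero_apply]

/-- **the action of the local Hecke ring on the `θ`-part** -/
noncomputable def ihdPartAct : IhdT 𝒪 θ →ₐ[𝒪] Module.End 𝒪 (ihdPart 𝒪 a θ) :=
  Ideal.Quotient.liftₐ (ihdKer 𝒪 (ihdMax 𝒪 θ)) (ihdPartActB 𝒪 a θ) (ihdPartActB_ker 𝒪 a θ)

@[simp] theorem ihdPartAct_mk (b : IhdB 𝒪 N S) :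
    ihdPartAct 𝒪 a θ (ihdLocMk 𝒪 (ihdMax 𝒪 θ) b) = ihdPartActB 𝒪 a θ b := rfl

theorem ihdPartAct_pi (t : CuspForm.heckeAlgebra N 2 S) (x : ihdPart 𝒪 a θ) :
    ((ihdPartAct 𝒪 a θ (ihdPi 𝒪 θ t) x : ihdPart 𝒪 a θ) : M) = a t (x : M) := by
  rw [ihdPi_apply, ihdPartAct_mk, ihdPartActB_apply, ihdAct_tmul, one_smul]

/-- the annihilator of the `θ`-part in the local Hecke ring -/
noncomputable def ihdImgKer : Ideal (IhdT 𝒪 θ) :=
  RingHom.ker (ihdPartAct 𝒪 a θ : IhdT 𝒪 θ →+* Module.End 𝒪 (ihdPart 𝒪 a θ))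

theorem mem_ihdImgKer (t : IhdT 𝒪 θ) : t ∈ ihdImgKer 𝒪 a θ ↔ ihdPartAct 𝒪 a θ t = 0 :=
  RingHom.mem_ker

/-- **the Hecke ring of the module `M` at `θ`** -/
abbrev IhdImg : Type := IhdT 𝒪 θ ⧸ ihdImgKer 𝒪 a θ

/-- the projection `T_θ → T_θ(M)` -/
noncomputable abbrev ihdImgMk : IhdT 𝒪 θ →ₐ[𝒪] IhdImg 𝒪 a θ :=
  Ideal.Quotient.mkₐ 𝒪 (ihdImgKer 𝒪 a θ)

theorem ihdImgMk_surjective : Function.Surjective (ihdImgMk 𝒪 a θ) :=
  Ideal.Quotient.mkₐ_surjective 𝒪 _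

/-- `𝕋 → T_θ(M)` -/
noncomputable def ihdImgPi : CuspForm.heckeAlgebra N 2 S →+* IhdImg 𝒪 a θ :=
  (ihdImgMk 𝒪 a θ : IhdT 𝒪 θ →+* IhdImg 𝒪 a θ).comp (ihdPi 𝒪 θ)

theorem ihdImgPi_apply (t : CuspForm.heckeAlgebra N 2 S) :
    ihdImgPi 𝒪 a θ t = ihdImgMk 𝒪 a θ (ihdPi 𝒪 θ t) := rfl

/-- **the faithful action of the Hecke ring on the `θ`-part** -/
noncomputable def ihdImgAct : IhdImg 𝒪 a θ →ₐ[𝒪] Module.End 𝒪 (ihdPart 𝒪 a θ) :=
  Ideal.Quotient.liftₐ (ihdImgKer 𝒪 a θ) (ihdPartAct 𝒪 a θ)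
    (fun t ht => (mem_ihdImgKer 𝒪 a θ t).mp ht)

@[simp] theorem ihdImgAct_mk (t : IhdT 𝒪 θ) :
    ihdImgAct 𝒪 a θ (ihdImgMk 𝒪 a θ t) = ihdPartAct 𝒪 a θ t := rfl

theorem ihdImgAct_injective : Function.Injective (ihdImgAct 𝒪 a θ) := by
  rw [injective_iff_map_eq_zero]
  intro z hz
  obtain ⟨t, rfl⟩ := ihdImgMk_surjective 𝒪 a θ z
  rw [ihdImgAct_mk] at hz
  exact Ideal.Quotient.eq_zero_iff_mem.mpr ((mem_ihdImgKer 𝒪 a θ t).mpr hz)

theorem ihdImgAct_pi (t : CuspForm.heckeAlgebra N 2 S) (x : ihdPart 𝒪 a θ) :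
    ((ihdImgAct 𝒪 a θ (ihdImgPi 𝒪 a θ t) x : ihdPart 𝒪 a θ) : M) = a t (x : M) := by
  rw [ihdImgPi_apply, ihdImgAct_mk, ihdPartAct_pi]

/-- generation by the Hecke operators -/
theorem ihd_adjoin_range_imgPi : Algebra.adjoin 𝒪 (Set.range (ihdImgPi 𝒪 a θ)) = ⊤ := by
  rw [eq_top_iff]
  rintro z -
  obtain ⟨t, rfl⟩ := ihdImgMk_surjective 𝒪 a θ z
  have ht : t ∈ Algebra.adjoin 𝒪 (Set.range (ihdPi 𝒪 θ)) := by
    rw [ihd_adjoin_range_pi]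
    trivial
  have h1 : (Algebra.adjoin 𝒪 (Set.range (ihdPi 𝒪 θ))).map (ihdImgMk 𝒪 a θ) ≤
      Algebra.adjoin 𝒪 (Set.range (ihdImgPi 𝒪 a θ)) := by
    rw [AlgHom.map_adjoin]
    apply Algebra.adjoin_mono
    rintro _ ⟨_, ⟨s, rfl⟩, rfl⟩
    exact ⟨s, rfl⟩
  exact h1 ⟨t, ht, rfl⟩

end Part

section Inst

variable (𝒪 : Type) [CommRing 𝒪] [IsDomain 𝒪] [IsDiscreteValuationRing 𝒪]
  [IsAdicComplete (maximalIdeal 𝒪) 𝒪]
  {N : ℕ} [NeZero N] {S : Set ℕ}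
  {M : Type*} [AddCommGroup M] [Module 𝒪 M]
  (a : CuspForm.heckeAlgebra N 2 S →+* Module.End 𝒪 M)
  (θ : CuspForm.heckeAlgebra N 2 S →+* ResidueField 𝒪)

instance ihdImg_finite : Module.Finite 𝒪 (IhdImg 𝒪 a θ) :=
  Module.Finite.of_surjective (ihdImgMk 𝒪 a θ).toLinearMap (ihdImgMk_surjective 𝒪 a θ)

instance ihdImg_isNoetherianRing : IsNoetherianRing (IhdImg 𝒪 a θ) :=
  IsNoetherianRing.of_finite 𝒪 (IhdImg 𝒪 a θ)

/-- the Hecke ring of a torsion-free module is torsion-free -/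
theorem ihdImg_smul_eq_zero [Module.IsTorsionFree 𝒪 M] (c : 𝒪) (hc : c ≠ 0) (z : IhdImg 𝒪 a θ)
    (h : c • z = 0) : z = 0 := by
  apply ihdImgAct_injective 𝒪 a θ
  rw [map_zero]
  ext x
  have h1 : ihdImgAct 𝒪 a θ (c • z) x = 0 := by rw [h, map_zero, LinearMap.zero_apply]
  rw [map_smul, LinearMap.smul_apply] at h1
  have h2 : c • ((ihdImgAct 𝒪 a θ z x : ihdPart 𝒪 a θ) : M) = 0 := by
    rw [← Submodule.coe_smul, h1, Submodule.coe_zero]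
  rw [LinearMap.zero_apply, Submodule.coe_zero]
  exact (smul_eq_zero.mp h2).resolve_left hc

instance ihdImg_isTorsionFree [Module.IsTorsionFree 𝒪 M] :
    Module.IsTorsionFree 𝒪 (IhdImg 𝒪 a θ) where
  isSMulRegular r hr y₁ y₂ h := by
    have hr0 : r ≠ 0 := hr.ne_zero
    have h0 : r • (y₁ - y₂) = 0 := by
      rw [smul_sub]
      exact sub_eq_zero.mpr h
    exact sub_eq_zero.mp (ihdImg_smul_eq_zero 𝒪 a θ r hr0 _ h0)

instance ihdImg_free [Module.IsTorsionFree 𝒪 M] : Module.Free 𝒪 (IhdImg 𝒪 a θ) :=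
  Module.free_of_finite_type_torsion_free'

instance ihdImg_nontrivial [Nontrivial (ihdPart 𝒪 a θ)] : Nontrivial (IhdImg 𝒪 a θ) := by
  refine ⟨⟨1, 0, fun h => ?_⟩⟩
  obtain ⟨x, y, hxy⟩ := exists_pair_ne (ihdPart 𝒪 a θ)
  have h1 := congrArg (fun z => ihdImgAct 𝒪 a θ z) h
  simp only [map_one, map_zero] at h1
  apply hxy
  have hx := LinearMap.congr_fun h1 x
  have hy := LinearMap.congr_fun h1 y
  rw [Module.End.one_apply, LinearMap.zero_apply] at hx hy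
  rw [hx, hy]

instance ihdImg_isLocalRing [Nontrivial (ihdPart 𝒪 a θ)] : IsLocalRing (IhdImg 𝒪 a θ) :=
  IsLocalRing.of_surjective' (ihdImgMk 𝒪 a θ : IhdT 𝒪 θ →+* IhdImg 𝒪 a θ)
    (ihdImgMk_surjective 𝒪 a θ)

instance ihdImg_isLocalHom [Nontrivial (ihdPart 𝒪 a θ)] :
    IsLocalHom (algebraMap 𝒪 (IhdImg 𝒪 a θ)) :=
  ihd_isLocalHom_of_finite 𝒪 (IhdImg 𝒪 a θ)

instance ihdImg_isAdicComplete [Nontrivial (ihdPart 𝒪 a θ)] :
    IsAdicComplete (maximalIdeal (IhdImg 𝒪 a θ)) (IhdImg 𝒪 a θ) :=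
  ihd_isAdicComplete_of_finite_local 𝒪 (IhdImg 𝒪 a θ)

/-- the projection is a local homomorphism -/
theorem ihdImgMk_isLocalHom [Nontrivial (ihdPart 𝒪 a θ)] :
    IsLocalHom (ihdImgMk 𝒪 a θ : IhdT 𝒪 θ →+* IhdImg 𝒪 a θ) :=
  IsLocalHom.of_surjective _ (ihdImgMk_surjective 𝒪 a θ)

end Inst

end Fermat.Agent.Ihara
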