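/-
IHARA package [H1] / (Tw5) (helper7), file: **the Galois representation over the Hecke ring of a
Hecke module** — the base change of the representation of the datum over `IhdT 𝒪 θ` along
`IhdT 𝒪 θ ↠ IhdImg 𝒪 a θ`, with its Frobenius polynomials, unramifiedness outside `S` (S31),
residual representation, and reducedness of `IhdImg 𝒪 a θ`.
-/
import Mathlib
import Fermat.Agent.Lib.Ihara.Dat.Datum
import Fermat.Agent.Lib.Ihara.Dat.Img
import Fermat.Agent.S31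

set_option autoImplicit false
set_option linter.unusedSectionVars false
set_option linter.unusedVariables false
set_option linter.style.haveILetI false

open IsLocalRing Polynomial
open scoped TensorProduct

namespace Fermat.Agent.Ihara

local notation "Qbar" => AlgebraicClosure ℚ
local notation "GQ" => (AlgebraicClosure ℚ ≃ₐ[ℚ] AlgebraicClosure ℚ)

section BaseChange

variable {T T' : Type} [CommRing T] [IsLocalRing T] [CommRing T'] [IsLocalRing T']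

/-- the characteristic polynomials of a base change -/
theorem ihd_charpoly_baseChangeAlong (f : T →+* T') (hf : IsLocalHom f) (ρ : GaloisRepAdic T)
    (σ : GQ) :
    LinearMap.charpoly ((ρ.baseChangeAlong f hf).ρ σ) = (LinearMap.charpoly (ρ.ρ σ)).map f := by
  letI : Algebra T T' := f.toAlgebra
  exact LinearMap.charpoly_baseChange (A := T') (ρ.ρ σ)

/-- a Frobenius polynomial of a base change -/
theorem ihd_frob_baseChangeAlong (f : T →+* T') (hf : IsLocalHom f) (ρ : GaloisRepAdic T)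
    (σ : GQ) (t : T) (ℓ : ℕ)
    (h : LinearMap.charpoly (ρ.ρ σ) = X ^ 2 - C t * X + C ((ℓ : T))) :
    LinearMap.charpoly ((ρ.baseChangeAlong f hf).ρ σ) = X ^ 2 - C (f t) * X + C ((ℓ : T')) := by
  letI : Algebra T T' := f.toAlgebra
  exact ihd_charpoly_baseChange (B := T') (ρ.ρ σ) t ℓ h

/-- unramifiedness passes to base changes -/
theorem ihd_isUnramifiedAt_baseChangeAlong (f : T →+* T') (hf : IsLocalHom f)
    (ρ : GaloisRepAdic T) (q : ℕ) (h : ρ.IsUnramifiedAt q) :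
    (ρ.baseChangeAlong f hf).IsUnramifiedAt q := by
  intro P hP σ hσ
  letI : Algebra T T' := f.toAlgebra
  show (ρ.ρ σ).baseChange T' = 1
  rw [h P hP σ hσ, LinearMap.baseChange_one]

end BaseChange

section ImgRep

variable {p : ℕ} {𝒪 : Type} [CommRing 𝒪] [IsDomain 𝒪] [IsDiscreteValuationRing 𝒪]
  [IsAdicComplete (maximalIdeal 𝒪) 𝒪]
  {N : ℕ} [NeZero N] {S : Finset ℕ}
  {θ : CuspForm.heckeAlgebra N 2 (↑S : Set ℕ) →+* ResidueField 𝒪}
  {M : Type*} [AddCommGroup M] [Module 𝒪 M]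
  (a : CuspForm.heckeAlgebra N 2 (↑S : Set ℕ) →+* Module.End 𝒪 M)
  [Nontrivial (ihdPart 𝒪 a θ)]

/-- **the Galois representation over the Hecke ring of `M`** -/
noncomputable def ihdImgRep (H : CuspForm.HeckeGaloisRepDatum N (↑S : Set ℕ) 𝒪 θ (IhdT 𝒪 θ)) :
    GaloisRepAdic (IhdImg 𝒪 a θ) :=
  H.ρ.baseChangeAlong (ihdImgMk 𝒪 a θ : IhdT 𝒪 θ →+* IhdImg 𝒪 a θ) (ihdImgMk_isLocalHom 𝒪 a θ)

/-- its Frobenius polynomials -/
theorem ihdImgRep_charpoly (H : CuspForm.HeckeGaloisRepDatum N (↑S : Set ℕ) 𝒪 θ (IhdT 𝒪 θ))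
    (hπ : H.π = ihdPi 𝒪 θ) (ℓ : ℕ) (hℓ : ℓ.Prime) (hℓN : ¬ ℓ ∣ N) (hℓS : ℓ ∉ (↑S : Set ℕ))
    (A : ValuationSubring Qbar) (hA : A.LiesOverPrime ℓ) (σ : GQ) (hσ : A.IsFrobeniusAt σ ℓ) :
    LinearMap.charpoly ((ihdImgRep a H).ρ σ) =
      X ^ 2 - C (ihdImgPi 𝒪 a θ (CuspForm.heckeAlgebra.T hℓ hℓN hℓS)) * X
        + C ((ℓ : IhdImg 𝒪 a θ)) := by
  have h := H.charpoly_frob ℓ hℓ hℓN hℓS A hA σ hσ
  rw [hπ] at h
  exact ihd_frob_baseChangeAlong _ _ H.ρ σ _ ℓ h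

/-- it is unramified outside `S` (S31) -/
theorem ihdImgRep_isUnramifiedAt (hp : p.Prime) (hp𝒪 : (p : 𝒪) ∈ maximalIdeal 𝒪) (hpS : p ∈ S)
    (hNS : ∀ q : ℕ, q.Prime → q ∣ N → q ∈ S)
    (H : CuspForm.HeckeGaloisRepDatum N (↑S : Set ℕ) 𝒪 θ (IhdT 𝒪 θ))
    (q : ℕ) (hq : q.Prime) (hqS : q ∉ S) : (ihdImgRep a H).IsUnramifiedAt q :=
  ihd_isUnramifiedAt_baseChangeAlong _ _ H.ρ q
    (Fermat.Agent.S31.result hp hp𝒪 hpS hNS H q hq hqS)

/-- the residue of the Hecke operators in the Hecke ring of `M` -/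
theorem ihd_residue_imgPi (t : CuspForm.heckeAlgebra N 2 (↑S : Set ℕ)) :
    residue (IhdImg 𝒪 a θ) (ihdImgPi 𝒪 a θ t) =
      ResidueField.map (algebraMap 𝒪 (IhdImg 𝒪 a θ)) (θ t) := by
  obtain ⟨c, hc⟩ := residue_surjective (θ t)
  have h1 : ihdPi 𝒪 θ t - algebraMap 𝒪 (IhdT 𝒪 θ) c ∈ maximalIdeal (IhdT 𝒪 θ) := by
    rw [← residue_eq_zero_iff, map_sub, ihd_residue_pi, ← hc, ResidueField.map_residue,
      sub_self]
  haveI := ihdImgMk_isLocalHom 𝒪 a θ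
  have h2 := map_nonunit (ihdImgMk 𝒪 a θ : IhdT 𝒪 θ →+* IhdImg 𝒪 a θ) _ h1
  have h3 : ihdImgPi 𝒪 a θ t - algebraMap 𝒪 (IhdImg 𝒪 a θ) c ∈ maximalIdeal (IhdImg 𝒪 a θ) := by
    have e : (ihdImgMk 𝒪 a θ : IhdT 𝒪 θ →+* IhdImg 𝒪 a θ)
        (ihdPi 𝒪 θ t - algebraMap 𝒪 (IhdT 𝒪 θ) c) =
        ihdImgPi 𝒪 a θ t - algebraMap 𝒪 (IhdImg 𝒪 a θ) c := by
      rw [RingHom.coe_coe, map_sub, AlgHom.commutes]
      rfl
    rw [← e]
    exact h2
  rw [← residue_eq_zero_iff, map_sub, sub_eq_zero] at h3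
  rw [h3, ← hc, ResidueField.map_residue]

/-- its residual representation is `ρbar` -/
theorem ihdImgRep_residual (hNS : ∀ q : ℕ, q.Prime → q ∣ N → q ∈ S)
    (ρbar : ResidualGaloisRep (ResidueField 𝒪)) (habs : ρbar.IsAbsolutelyIrreducible)
    (hfrob : ∀ (ℓ : ℕ) (hℓ : ℓ.Prime) (hℓN : ¬ ℓ ∣ N) (hℓS : ℓ ∉ (↑S : Set ℕ)),
      ∀ A : ValuationSubring (AlgebraicClosure ℚ), A.LiesOverPrime ℓ →
        ∀ σ : AlgebraicClosure ℚ ≃ₐ[ℚ] AlgebraicClosure ℚ, A.IsFrobeniusAt σ ℓ →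
          LinearMap.charpoly (ρbar.ρ σ) =
            X ^ 2 - C (θ (CuspForm.heckeAlgebra.T hℓ hℓN hℓS)) * X + C ((ℓ : ResidueField 𝒪)))
    (H : CuspForm.HeckeGaloisRepDatum N (↑S : Set ℕ) 𝒪 θ (IhdT 𝒪 θ)) (hπ : H.π = ihdPi 𝒪 θ) :
    IhdGram (ihdImgRep a H).residual ∧
      (ihdImgRep a H).residual.IsEquiv
        (ρbar.baseChangeAlong (ResidueField.map (algebraMap 𝒪 (IhdImg 𝒪 a θ)))) :=
  ihd_residual_of_frob hNS θ ρbar habs hfrob (ihdImgPi 𝒪 a θ) (ihd_residue_imgPi a)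
    (ihdImgRep a H) (ihdImgRep_charpoly a H hπ)

end ImgRep

section Reduced

variable {𝒪 : Type} [CommRing 𝒪] [IsDomain 𝒪] [IsDiscreteValuationRing 𝒪]
  [IsAdicComplete (maximalIdeal 𝒪) 𝒪] [CharZero 𝒪]
  {N : ℕ} [NeZero N] {S : Finset ℕ}
  (θ : CuspForm.heckeAlgebra N 2 (↑S : Set ℕ) →+* ResidueField 𝒪)
  {M : Type*} [AddCommGroup M] [Module 𝒪 M] [Module.IsTorsionFree 𝒪 M]
  (a : CuspForm.heckeAlgebra N 2 (↑S : Set ℕ) →+* Module.End 𝒪 M)

/-- **the Hecke ring of a torsion-free Hecke module is reduced** -/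
theorem ihdImg_isReduced (hNS : ∀ q : ℕ, q.Prime → q ∣ N → q ∈ S) :
    IsReduced (IhdImg 𝒪 a θ) := by
  haveI : CharZero (FractionRing 𝒪) :=
    charZero_of_injective_algebraMap (IsFractionRing.injective 𝒪 (FractionRing 𝒪))
  apply Fermat.Agent.Alpha.alpz_isReduced_of_gen (R := 𝒪) (K := FractionRing 𝒪)
    (Set.range (ihdImgPi 𝒪 a θ)) (ihd_adjoin_range_imgPi 𝒪 a θ)
  rintro _ ⟨t, rfl⟩
  obtain ⟨P, hP0, hPsq⟩ := Fermat.Agent.Alpha.alpz_hecke_exists_poly hNS t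
  refine ⟨P.map (Int.castRingHom 𝒪), ?_, ?_⟩
  · have h1 : (algebraMap 𝒪 (IhdImg 𝒪 a θ)).comp (Int.castRingHom 𝒪) =
        (ihdImgPi 𝒪 a θ).comp (algebraMap ℤ (CuspForm.heckeAlgebra N 2 (↑S : Set ℕ))) :=
      RingHom.ext_int _ _
    rw [aeval_def, eval₂_map, h1, ← hom_eval₂, ← aeval_def, hP0, map_zero]
  · have hsep : (P.map (Int.castRingHom ℚ)).Separable :=
      PerfectField.separable_iff_squarefree.mpr hPsq
    have h2 := hsep.map (f := algebraMap ℚ (FractionRing 𝒪))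
    rw [Polynomial.map_map] at h2 ⊢
    have h3 : (algebraMap ℚ (FractionRing 𝒪)).comp (Int.castRingHom ℚ) =
        (algebraMap 𝒪 (FractionRing 𝒪)).comp (Int.castRingHom 𝒪) := RingHom.ext_int _ _
    rw [h3] at h2
    exact h2.squarefree

end Reduced

end Fermat.Agent.Ihara
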